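/-
GATE-L / L3c-RESTRICT part 0 (helper67): the Gauss valuation and SUBSTITUTIONS of the variable.

`L` a field, `A ⊂ L` a valuation subring, `k` its residue field.  A *substitution triple* is a
triple of ring endomorphisms `ΦL` of `L((t))`, `ΦA` of `A((t))`, `Φk` of `k((t))` compatible with
the coefficientwise embedding `emb` and the coefficientwise reduction `rd`
(examples: `t ↦ t^e` = `qExpand _ e`; `t ↦ ξ t^e` = `cuspS _ ξ e`, `ξ ∈ Aˣ`).
For `F, F' ≤ L((t))` with Gauss fractions and `ΦL(F) ⊂ F'`: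

* `substF : F →+* F'`;
* `mem_Rw_iff : x ∈ Rw A F ↔ substF x ∈ Rw A F'`  (the Gauss valuation of `F'` RESTRICTS to the Gauss
  valuation of `F` along the substitution);
* `redL_substF : redL' (substF x) = Φk (redL x)`;
* `fresMap : Fres A F →+* Fres A F'`, `red_substRw`.

This is the twin of helper45's `GK/Val/GaussBaseChange.lean` (there: change of the coefficient
field; here: change of the variable).
-/
import Fermat.Agent.GJ.J1.Val.GaussRedData

set_option autoImplicit false

noncomputable section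

namespace Fermat.Agent.GL.Table.Subst

open HahnSeries ModularCurve IsLocalRing
open Fermat.Agent.GJ.J1 Fermat.Agent.GJ.J1.Val

section Generic

variable {L : Type*} [Field L] (A : ValuationSubring L)
  (ΦL : LaurentSeries L →+* LaurentSeries L) (ΦA : LaurentSeries A →+* LaurentSeries A)
  (Φk : LaurentSeries (ResidueField A) →+* LaurentSeries (ResidueField A))
  (hemb : ∀ a : LaurentSeries A, emb A (ΦA a) = ΦL (emb A a))
  (hrd : ∀ a : LaurentSeries A, rd A (ΦA a) = Φk (rd A a))

variable (F F' : IntermediateField L (LaurentSeries L))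
  (hF : ∀ x ∈ F, ΦL x ∈ F')

include hemb hrd hF in
theorem IsFrac.subst {x : LaurentSeries L} {a b : LaurentSeries A} (h : IsFrac A F x a b) :
    IsFrac A F' (ΦL x) (ΦA a) (ΦA b) := by
  obtain ⟨ha, hb, hb0, hx⟩ := h
  refine ⟨?_, ?_, ?_, ?_⟩
  · rw [hemb]; exact hF _ ha
  · rw [hemb]; exact hF _ hb
  · rw [hrd]
    intro h0
    exact hb0 (Φk.injective (by rw [h0, map_zero]))
  · rw [hemb, hemb, ← map_mul, hx]

/-- the substitution map `F →+* F'` -/
def substF : F →+* F' where
  toFun x := ⟨ΦL (x : LaurentSeries L), hF _ x.2⟩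
  map_one' := by ext1; simp
  map_mul' x y := by ext1; simp
  map_zero' := by ext1; simp
  map_add' x y := by ext1; simp

@[simp]
theorem coe_substF (x : F) :
    ((substF ΦL F F' hF x : F') : LaurentSeries L) = ΦL (x : LaurentSeries L) := rfl

variable (hGF : HasGaussFrac A F) (hGF' : HasGaussFrac A F')

include hemb hrd in
/-- the Gauss valuation ring maps into the Gauss valuation ring -/
theorem substF_mem_Rw {x : F} (hx : x ∈ Rw A F hGF) : substF ΦL F F' hF x ∈ Rw A F' hGF' := by
  obtain ⟨a, b, h⟩ := hx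
  exact ⟨_, _, IsFrac.subst A ΦL ΦA Φk hemb hrd F F' hF h⟩

include hemb hrd in
/-- **compatibility of the reductions** -/
theorem redL_substF {x : F} (hx : x ∈ Rw A F hGF) (hx' : substF ΦL F F' hF x ∈ Rw A F' hGF') :
    redL A F' hGF' ⟨substF ΦL F F' hF x, hx'⟩ = Φk (redL A F hGF ⟨x, hx⟩) := by
  obtain ⟨a, b, h⟩ := hx
  have h' := IsFrac.subst A ΦL ΦA Φk hemb hrd F F' hF h
  have e1 : redL A F hGF ⟨x, ⟨a, b, h⟩⟩ = rd A a / rd A b := redL_eq (x := ⟨x, ⟨a, b, h⟩⟩) h
  have e2 : redL A F' hGF' ⟨substF ΦL F F' hF x, hx'⟩ = _ :=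
    redL_eq (x := ⟨substF ΦL F F' hF x, hx'⟩) h'
  rw [e1, e2, hrd, hrd, map_div₀]

include hemb hrd in
/-- **the Gauss valuation of `F'` restricts to the Gauss valuation of `F`** -/
theorem mem_Rw_iff (x : F) : x ∈ Rw A F hGF ↔ substF ΦL F F' hF x ∈ Rw A F' hGF' := by
  refine ⟨substF_mem_Rw A ΦL ΦA Φk hemb hrd F F' hF hGF hGF', fun hx' => ?_⟩
  by_contra hx
  have hx0 : x ≠ 0 := fun h0 => hx (h0 ▸ zero_mem _)
  have hinv : x⁻¹ ∈ Rw A F hGF := ((Rw A F hGF).mem_or_inv_mem x).resolve_left hx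
  have hred : redL A F hGF ⟨x⁻¹, hinv⟩ = 0 := by
    by_contra hne
    have := inv_mem_of_redL_ne_zero (x := ⟨x⁻¹, hinv⟩) hne
    rw [inv_inv] at this
    exact hx this
  have hinv' := substF_mem_Rw A ΦL ΦA Φk hemb hrd F F' hF hGF hGF' hinv
  have hred' := redL_substF A ΦL ΦA Φk hemb hrd F F' hF hGF hGF' hinv hinv'
  rw [hred, map_zero] at hred'
  have hmul : (⟨substF ΦL F F' hF x, hx'⟩ : Rw A F' hGF') * ⟨substF ΦL F F' hF x⁻¹, hinv'⟩ = 1 := by
    ext1
    show substF ΦL F F' hF x * substF ΦL F F' hF x⁻¹ = 1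
    rw [← map_mul, mul_inv_cancel₀ hx0, map_one]
  have := congrArg (redL A F' hGF') hmul
  rw [map_mul, hred', mul_zero, map_one] at this
  exact zero_ne_one this

include hemb hrd in
theorem Rw_eq_comap : Rw A F hGF = (Rw A F' hGF').comap (substF ΦL F F' hF) := by
  ext x
  exact mem_Rw_iff A ΦL ΦA Φk hemb hrd F F' hF hGF hGF' x

/-- the map `Rw → Rw'` -/
def substRw : Rw A F hGF →+* Rw A F' hGF' :=
  ((substF ΦL F F' hF).comp (Rw A F hGF).subtype).codRestrict (Rw A F' hGF')
    (fun x => substF_mem_Rw A ΦL ΦA Φk hemb hrd F F' hF hGF hGF' x.2)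

@[simp]
theorem coe_substRw (x : Rw A F hGF) :
    ((substRw A ΦL ΦA Φk hemb hrd F F' hF hGF hGF' x : Rw A F' hGF') : F') =
      substF ΦL F F' hF (x : F) := rfl

theorem redL_substRw (x : Rw A F hGF) :
    redL A F' hGF' (substRw A ΦL ΦA Φk hemb hrd F F' hF hGF hGF' x) =
      Φk (redL A F hGF x) :=
  redL_substF A ΦL ΦA Φk hemb hrd F F' hF hGF hGF' x.2 _

include hemb hrd hF in
/-- the residue field of `F` maps into the residue field of `F'` -/
theorem subst_mem_Fres {y : LaurentSeries (ResidueField A)} (hy : y ∈ Fres A F hGF) :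
    Φk y ∈ Fres A F' hGF' := by
  rw [mem_Fres_iff] at hy ⊢
  obtain ⟨x, rfl⟩ := hy
  exact ⟨substRw A ΦL ΦA Φk hemb hrd F F' hF hGF hGF' x,
    redL_substRw A ΦL ΦA Φk hemb hrd F F' hF hGF hGF' x⟩

/-- the induced map of residue fields `Fres A F →+* Fres A F'` -/
def fresMap : Fres A F hGF →+* Fres A F' hGF' where
  toFun y := ⟨Φk (y : LaurentSeries (ResidueField A)),
    subst_mem_Fres A ΦL ΦA Φk hemb hrd F F' hF hGF hGF' y.2⟩
  map_one' := by ext1; simp
  map_mul' x y := by ext1; simp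
  map_zero' := by ext1; simp
  map_add' x y := by ext1; simp

@[simp]
theorem coe_fresMap (y : Fres A F hGF) :
    ((fresMap A ΦL ΦA Φk hemb hrd F F' hF hGF hGF' y : Fres A F' hGF') :
        LaurentSeries (ResidueField A)) = Φk (y : LaurentSeries (ResidueField A)) := rfl

theorem fresMap_injective :
    Function.Injective (fresMap A ΦL ΦA Φk hemb hrd F F' hF hGF hGF') :=
  (fresMap A ΦL ΦA Φk hemb hrd F F' hF hGF hGF').injective

/-- **the commuting square of reductions** -/
theorem red_substRw (x : Rw A F hGF) :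
    red A F' hGF' (substRw A ΦL ΦA Φk hemb hrd F F' hF hGF hGF' x) =
      fresMap A ΦL ΦA Φk hemb hrd F F' hF hGF hGF' (red A F hGF x) := by
  apply Subtype.ext
  rw [coe_red, coe_fresMap, coe_red]
  exact redL_substRw A ΦL ΦA Φk hemb hrd F F' hF hGF hGF' x

end Generic

/-! ### The substitution `t ↦ t^e` -/

section QExpand

variable {L : Type*} [Field L] (A : ValuationSubring L) (e : ℕ) [NeZero e]

theorem emb_qExpand (a : LaurentSeries A) :
    emb A (qExpand A e a) = qExpand L e (emb A a) := by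
  rw [emb, coeffMap_qExpand]

theorem rd_qExpand (a : LaurentSeries A) :
    rd A (qExpand A e a) = qExpand (ResidueField A) e (rd A a) := by
  rw [rd, coeffMap_qExpand]

end QExpand

end Fermat.Agent.GL.Table.Subst
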