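/-
GATE-L / L3c-RESTRICT (helper67): the `π`-side of the CONCRETE TABLE — which cusp valuation of
`F_N` lies over which cusp valuation of `F_{N₁}` for the INCLUSION `F_{N₁} ≤ F_N` (`N₁ ∣ N`).

For `N = N₁ * e`, `proj : I0 N → I0 N₁` the projection of coset spaces (`Γ₀(N) ≤ Γ₀(N₁)`),
`inclFN : FN N₁ →ₐ[ℚ̄] FN N` the inclusion:

* `cuspSigma_incl` : `σ_c (incl x) = (σ_{proj c} x)(t ↦ t^e)`   (`t_{N₁} = t_N^e`);
* `mem_RwCusp_incl` : `incl x ∈ Rw_c ↔ x ∈ Rw_{proj c}`, i.e. `w_c | F_{N₁} = w_{proj c}`, for EVERY cusp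
  `c` and EVERY valuation subring `A` of `ℚ̄`;  `RwCusp_comap_incl` (comap form);
* `fresCuspMap : FresCusp N₁ A (proj c) →ₐ[k] FresCusp N A c` (`y ↦ y(t^e)`) and the commuting square
  `redCusp_incl : red_c (incl x) = fresCuspMap (red_{proj c} x)`;
* `proj_eq_idx₀_iff` : `proj c = ∞ ↔ N₁ ∣ (lower left entry of rep c)`;
* `mem_RwCusp_idx₀_iff` : the cusp valuation at `∞` is the Gauss valuation `RwBar` of GATE-J/K, hence
  `mem_RwCusp_incl_of_dvd` : if `N₁ ∣ (rep c)₁₀` then `incl x ∈ Rw_c ↔ x ∈ RwBar N₁ A`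
  (entries `(π; w₁ → w₁')` and `(π; w₃± → w₁')` of the table: `c = ∞`, resp. `c = 1/(q M')` at level
  `q² M'`, `N₁ = q M'`).
-/
import Fermat.Agent.GL.Cusp.CuspRedData
import Fermat.Agent.GL.Table.GaussSubst

set_option autoImplicit false

noncomputable section

namespace Fermat.Agent.GL.Table

open HahnSeries ModularCurve IsLocalRing CongruenceSubgroup
open Fermat.Agent.S24 Fermat.Agent.S28 Fermat.Agent.S28.CuspExp Fermat.Agent.S28.Assemble
open Fermat.Agent.S24_helper62 Fermat.Agent.S24.Degree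
open Fermat.Agent.GJ.J1 Fermat.Agent.GJ.J1.Val Fermat.Agent.GK.Val Fermat.Agent.GL.CuspVal
open scoped MatrixGroups

/-! ### Cosets and fields -/

section Proj

variable {N₁ N : ℕ}

theorem gamma0_le (h : N₁ ∣ N) : Gamma0 N ≤ Gamma0 N₁ := by
  intro g hg
  rw [Gamma0_mem] at hg ⊢
  rw [ZMod.intCast_zmod_eq_zero_iff_dvd] at hg ⊢
  exact (Int.natCast_dvd_natCast.mpr h).trans hg

/-- the projection `SL₂(ℤ) ⧸ Γ₀(N) → SL₂(ℤ) ⧸ Γ₀(N₁)` -/
def proj (h : N₁ ∣ N) : I0 N → I0 N₁ := Subgroup.quotientMapOfLE (gamma0_le h)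

@[simp] theorem proj_mk (h : N₁ ∣ N) (g : SL(2, ℤ)) :
    proj h (QuotientGroup.mk g : I0 N) = (QuotientGroup.mk g : I0 N₁) :=
  Subgroup.quotientMapOfLE_apply_mk _ g

theorem proj_surjective (h : N₁ ∣ N) : Function.Surjective (proj h) := by
  intro c
  obtain ⟨g, rfl⟩ := QuotientGroup.mk_surjective c
  exact ⟨QuotientGroup.mk g, proj_mk h g⟩

variable [NeZero N₁] [NeZero N]

/-- `rep (proj c) = γ · rep c` with `γ ∈ Γ₀(N₁)` -/
theorem exists_rep_proj (h : N₁ ∣ N) (c : I0 N) :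
    ∃ γ : SL(2, ℤ), (N₁ : ℤ) ∣ γ 1 0 ∧ rep N₁ (proj h c) = γ * rep N c := by
  have h1 : (QuotientGroup.mk (Quotient.out (proj h c)) : I0 N₁) =
      QuotientGroup.mk (Quotient.out c) := by
    rw [QuotientGroup.out_eq']
    conv_lhs => rw [← QuotientGroup.out_eq' c]
    exact proj_mk h _
  rw [QuotientGroup.eq] at h1
  refine ⟨(Quotient.out (proj h c))⁻¹ * Quotient.out c, ?_, ?_⟩
  · rw [Gamma0_mem, ZMod.intCast_zmod_eq_zero_iff_dvd] at h1
    exact h1
  · rw [rep, rep, mul_assoc, mul_inv_cancel, mul_one]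

theorem proj_idx₀ (h : N₁ ∣ N) : proj h (idx₀ N) = idx₀ N₁ := proj_mk h 1

/-- `proj c` is the cusp `∞` iff `N₁` divides the lower left entry of `rep c` -/
theorem proj_eq_idx₀_iff (h : N₁ ∣ N) (c : I0 N) :
    proj h c = idx₀ N₁ ↔ (N₁ : ℤ) ∣ (rep N c) 1 0 := by
  have h1 : proj h c = (QuotientGroup.mk (Quotient.out c) : I0 N₁) := by
    conv_lhs => rw [← QuotientGroup.out_eq' c]
    exact proj_mk h _
  rw [h1, idx₀, QuotientGroup.eq, mul_one, ← rep, Gamma0_mem,
    ZMod.intCast_zmod_eq_zero_iff_dvd]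

/-- `F_{N₁} ≤ F_N` -/
theorem fnBar_le (h : N₁ ∣ N) : modularFunctionFieldBar N₁ ≤ modularFunctionFieldBar N := by
  rw [modularFunctionFieldBar_eq_adjoin N₁, IntermediateField.adjoin_le_iff]
  rintro _ ⟨d, hne, hd, rfl⟩
  exact jdSeries_mem N (hd.trans h)

/-- the inclusion `F_{N₁} → F_N` -/
def inclFN (h : N₁ ∣ N) : FN N₁ →ₐ[Kbar] FN N := IntermediateField.inclusion (fnBar_le h)

@[simp] theorem coe_inclFN (h : N₁ ∣ N) (x : FN N₁) :
    ((inclFN h x : FN N) : LaurentSeries Kbar) = (x : LaurentSeries Kbar) :=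
  IntermediateField.coe_inclusion (fnBar_le h) x

theorem inclFN_jdF (h : N₁ ∣ N) {d : ℕ} [NeZero d] (hd : d ∣ N₁) :
    inclFN h (jdF N₁ d hd) = jdF N d (hd.trans h) := by
  apply Subtype.ext
  rw [coe_inclFN]
  rfl

theorem inclFN_injective (h : N₁ ∣ N) : Function.Injective (inclFN h) :=
  (inclFN h).toRingHom.injective

end Proj

/-! ### Roots of unity and Hermite series at two levels -/

section Series

variable {N₁ N e : ℕ} [NeZero N₁] [NeZero N] [NeZero e]

/-- the chosen roots of unity are compatible: `ζ_{N₁} = ζ_N ^ e` -/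
theorem zetaBar_eq_pow (he : N₁ * e = N) : zetaBar N₁ = zetaBar N ^ e := by
  apply Units.ext
  apply iotaC_injective
  rw [Units.val_pow_eq_pow_val, map_pow, iotaC_zetaBar, iotaC_zetaBar, ← Complex.exp_nat_mul]
  congr 1
  have h1 : (N₁ : ℂ) ≠ 0 := by exact_mod_cast NeZero.ne N₁
  have h2 : (e : ℂ) ≠ 0 := by exact_mod_cast NeZero.ne e
  rw [← he]
  push_cast
  field_simp

theorem hermiteSer_cast {K : Type*} [Field K] (ζ : Kˣ) (M : ℕ) {d : ℕ} {g g' : SL(2, ℤ)}
    (hg : g = g') (H : HermiteData d g) :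
    (hermiteSer ζ M (hg ▸ H) : LaurentSeries K) = hermiteSer ζ M H := by
  subst hg
  rfl

/-- the Hermite series at the cusp `proj c` and at the cusp `c` agree (same `ζ`, same `M`) -/
theorem hermiteSer_proj {K : Type*} [Field K] {ζ : Kˣ} {M : ℕ} (hζ : ζ ^ M = 1) (hM : 0 < M)
    (h : N₁ ∣ N) (c : I0 N) {d : ℕ} (hd : d ∣ N₁) (hdM : d ∣ M) :
    (hermiteSer ζ M (herm N₁ (proj h c) ⟨d, hd⟩) : LaurentSeries K) =
      hermiteSer ζ M (herm N c ⟨d, hd.trans h⟩) := by
  obtain ⟨γ, hγ, hrep⟩ := exists_rep_proj h c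
  have hγd : (d : ℤ) ∣ γ 1 0 := (Int.natCast_dvd_natCast.mpr hd).trans hγ
  have key := hermiteSer_mul_left (K := K) hζ hM hdM hγd (herm N c ⟨d, hd.trans h⟩)
    (hrep ▸ herm N₁ (proj h c) ⟨d, hd⟩)
  rw [hermiteSer_cast] at key
  exact key

theorem div_eq_mul_div (he : N₁ * e = N) {D : ℕ} (hD : D ∣ N₁) : N / D = e * (N₁ / D) := by
  obtain ⟨m, rfl⟩ := hD
  have hD0 : 0 < D := Nat.pos_of_ne_zero (by
    rintro rfl
    exact NeZero.ne (0 * m) (zero_mul m))
  rw [← he, Nat.mul_div_cancel_left _ hD0, mul_assoc, Nat.mul_div_cancel_left _ hD0, mul_comm]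

/-- `j(ξ t^{e m}) = (j(ξ t^m))(t ↦ t^e)` -/
theorem jCusp_mul {K : Type*} [Field K] (ξ : Kˣ) (m : ℕ) [NeZero m] :
    jCusp ξ (e * m) = qExpand K e (jCusp ξ m) := by
  have : NeZero (e * m) := ⟨Nat.mul_ne_zero (NeZero.ne e) (NeZero.ne m)⟩
  rw [jCusp_eq, jCusp_eq, cuspS_apply, cuspS_apply, qExpand_qExpand]

/-- the Hermite series at level `N = N₁ e` is the Hermite series at level `N₁` in `t^e` -/
theorem hermiteSer_level (he : N₁ * e = N) {d : ℕ} {g : SL(2, ℤ)} (hd : d ∣ N₁)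
    (H : HermiteData d g) :
    (hermiteSer (zetaBar N) N H : LaurentSeries Kbar) =
      qExpand Kbar e (hermiteSer (zetaBar N₁) N₁ H) := by
  have hN₁ : 0 < N₁ := Nat.pos_of_ne_zero (NeZero.ne N₁)
  have hd0 : 0 < d := Nat.pos_of_dvd_of_pos hd hN₁
  have : NeZero (H.expo N₁) := neZero_expo N₁ hN₁ hd H
  have hDn : H.Dn ∣ N₁ := (H.Dn_dvd hd0).trans hd
  have hxi : xi (zetaBar N₁) N₁ H.Dn H.B = xi (zetaBar N) N H.Dn H.B := by
    rw [xi, xi, zetaBar_eq_pow he, ← zpow_natCast, ← zpow_mul, div_eq_mul_div he hDn]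
    congr 1
    push_cast
    ring
  have hexpo : H.expo N = e * H.expo N₁ := by
    rw [HermiteData.expo, HermiteData.expo, div_eq_mul_div he hd, mul_assoc]
  rw [hermiteSer, hermiteSer, hxi, hexpo, jCusp_mul]

end Series

/-! ### The cusp embeddings at two levels -/

section Sigma

variable {N₁ N e : ℕ} [NeZero N₁] [NeZero N] [NeZero e]

/-- **(R2)** the expansion of `x ∈ F_{N₁}` at the cusp `c` of level `N = N₁ e` is the expansion at
the cusp `proj c` of level `N₁`, in the variable `t^e` -/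
theorem cuspSigma_incl (he : N₁ * e = N) (c : I0 N) (x : FN N₁) :
    cuspSigma N c (inclFN (Dvd.intro e he) x) =
      qExpand Kbar e (cuspSigma N₁ (proj (Dvd.intro e he) c) x) := by
  have h : N₁ ∣ N := Dvd.intro e he
  have key : (cuspSigma N c).comp (inclFN h) =
      (qExpandAlgHomC Kbar e).comp (cuspSigma N₁ (proj h c)) := by
    apply algHom_FN_ext
    intro d _ hd
    rw [AlgHom.comp_apply, AlgHom.comp_apply, inclFN_jdF, cuspSigma_jdF, cuspSigma_jdF,
      qExpandAlgHomC_apply, hermiteSer_level he hd,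
      hermiteSer_proj (zetaBar_pow N₁) (Nat.pos_of_ne_zero (NeZero.ne N₁)) h c hd hd]
  exact AlgHom.congr_fun key x

/-- the cusp `∞`: the expansion is `x(t^N)` -/
theorem cuspSigma_idx₀ (x : FN N) :
    cuspSigma N (idx₀ N) x = qExpand Kbar N (x : LaurentSeries Kbar) := by
  have h1 := (cuspInp N).σ_i₀_eq (IntermediateField.inclusion (fullBar_le_bigField N) x)
  rw [IntermediateField.coe_inclusion] at h1
  rw [cuspSigma, AlgHom.comp_apply]
  exact h1

end Sigma

/-! ### The restriction table for the inclusion `F_{N₁} ≤ F_N` -/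

section RedData

variable {N₁ N e : ℕ} [NeZero N₁] [NeZero N] [NeZero e] (A : ValuationSubring Kbar)

/-- `t ↦ t^e` maps the image of `σ_{proj c}` (level `N₁`) into the image of `σ_c` (level `N`) -/
theorem qExpand_mem_cuspField (he : N₁ * e = N) (c : I0 N) :
    ∀ x ∈ cuspField N₁ (proj (Dvd.intro e he) c), qExpand Kbar e x ∈ cuspField N c := by
  rintro _ ⟨y, rfl⟩
  exact ⟨inclFN (Dvd.intro e he) y, cuspSigma_incl he c y⟩

/-- the transition map of the image fields -/
abbrev cuspFieldMap (he : N₁ * e = N) (c : I0 N) :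
    cuspField N₁ (proj (Dvd.intro e he) c) →+* cuspField N c :=
  Subst.substF (qExpand Kbar e) (cuspField N₁ (proj (Dvd.intro e he) c)) (cuspField N c)
    (qExpand_mem_cuspField he c)

theorem cuspFieldMap_cuspEquiv (he : N₁ * e = N) (c : I0 N) (x : FN N₁) :
    cuspFieldMap he c (cuspEquiv N₁ (proj (Dvd.intro e he) c) x) =
      cuspEquiv N c (inclFN (Dvd.intro e he) x) := by
  apply Subtype.ext
  rw [Subst.coe_substF, coe_cuspEquiv, coe_cuspEquiv, cuspSigma_incl he c x]

/-- **(R4)** `w_c | F_{N₁} = w_{proj c}`: the cusp valuation of level `N` at `c` restricts to the cusp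
valuation of level `N₁` at `proj c` -/
theorem mem_RwCusp_incl (he : N₁ * e = N) (c : I0 N) (x : FN N₁) :
    inclFN (Dvd.intro e he) x ∈ (redDataCusp N A c).Rw ↔
      x ∈ (redDataCusp N₁ A (proj (Dvd.intro e he) c)).Rw := by
  rw [mem_RwCusp_iff, mem_RwCusp_iff, ← cuspFieldMap_cuspEquiv he c x]
  exact (Subst.mem_Rw_iff A (qExpand Kbar e) (qExpand A e) (qExpand (ResidueField A) e)
    (Subst.emb_qExpand A e) (Subst.rd_qExpand A e) _ _ (qExpand_mem_cuspField he c)
    (hasGaussFrac_cusp N₁ A _) (hasGaussFrac_cusp N A c) _).symm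

/-- comap form of `mem_RwCusp_incl` -/
theorem RwCusp_comap_incl (he : N₁ * e = N) (c : I0 N) :
    (redDataCusp N A c).Rw.comap ((inclFN (Dvd.intro e he) : FN N₁ →ₐ[Kbar] FN N) : FN N₁ →+* FN N) =
      (redDataCusp N₁ A (proj (Dvd.intro e he) c)).Rw := by
  ext x
  rw [ValuationSubring.mem_comap, RingHom.coe_coe]
  exact mem_RwCusp_incl A he c x

/-- the transition map of residue fields `y ↦ y(t^e)` -/
def fresCuspHom (he : N₁ * e = N) (c : I0 N) :
    FresCusp N₁ A (proj (Dvd.intro e he) c) →+* FresCusp N A c :=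
  Subst.fresMap A (qExpand Kbar e) (qExpand A e) (qExpand (ResidueField A) e)
    (Subst.emb_qExpand A e) (Subst.rd_qExpand A e) (cuspField N₁ (proj (Dvd.intro e he) c))
    (cuspField N c) (qExpand_mem_cuspField he c) (hasGaussFrac_cusp N₁ A _)
    (hasGaussFrac_cusp N A c)

@[simp] theorem coe_fresCuspHom (he : N₁ * e = N) (c : I0 N)
    (y : FresCusp N₁ A (proj (Dvd.intro e he) c)) :
    ((fresCuspHom A he c y : FresCusp N A c) : LaurentSeries (ResidueField A)) =
      qExpand (ResidueField A) e (y : LaurentSeries (ResidueField A)) := rfl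

/-- the transition map of residue fields, as a map of `k`-algebras -/
def fresCuspMap (he : N₁ * e = N) (c : I0 N) :
    FresCusp N₁ A (proj (Dvd.intro e he) c) →ₐ[ResidueField A] FresCusp N A c where
  __ := fresCuspHom A he c
  commutes' r := by
    apply Subtype.ext
    show qExpand (ResidueField A) e (algebraMap (ResidueField A)
      (LaurentSeries (ResidueField A)) r) = algebraMap (ResidueField A)
      (LaurentSeries (ResidueField A)) r
    rw [algebraMap_laurentSeries_eq_single, qExpand_single, mul_zero]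

@[simp] theorem coe_fresCuspMap (he : N₁ * e = N) (c : I0 N)
    (y : FresCusp N₁ A (proj (Dvd.intro e he) c)) :
    ((fresCuspMap A he c y : FresCusp N A c) : LaurentSeries (ResidueField A)) =
      qExpand (ResidueField A) e (y : LaurentSeries (ResidueField A)) := rfl

theorem fresCuspMap_injective (he : N₁ * e = N) (c : I0 N) :
    Function.Injective (fresCuspMap A he c) :=
  (fresCuspMap A he c).toRingHom.injective

/-- **the commuting square of reductions**, on Laurent series: `red_c (incl x) = (red_{proj c} x)(t^e)` -/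
theorem coe_redCusp_incl (he : N₁ * e = N) (c : I0 N) (x : FN N₁)
    (hx : x ∈ (redDataCusp N₁ A (proj (Dvd.intro e he) c)).Rw)
    (hx' : inclFN (Dvd.intro e he) x ∈ (redDataCusp N A c).Rw) :
    (((redDataCusp N A c).red ⟨inclFN (Dvd.intro e he) x, hx'⟩ : FresCusp N A c) :
        LaurentSeries (ResidueField A)) =
      qExpand (ResidueField A) e
        (((redDataCusp N₁ A (proj (Dvd.intro e he) c)).red ⟨x, hx⟩ : FresCusp N₁ A _) :
          LaurentSeries (ResidueField A)) := by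
  have hx1 : cuspEquiv N₁ (proj (Dvd.intro e he) c) x ∈
      Rw A (cuspField N₁ (proj (Dvd.intro e he) c)) (hasGaussFrac_cusp N₁ A _) := hx
  have hx2 : cuspFieldMap he c (cuspEquiv N₁ (proj (Dvd.intro e he) c) x) ∈
      Rw A (cuspField N c) (hasGaussFrac_cusp N A c) := by
    rw [cuspFieldMap_cuspEquiv]
    exact hx'
  have key := Subst.redL_substF A (qExpand Kbar e) (qExpand A e) (qExpand (ResidueField A) e)
    (Subst.emb_qExpand A e) (Subst.rd_qExpand A e) _ _ (qExpand_mem_cuspField he c)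
    (hasGaussFrac_cusp N₁ A _) (hasGaussFrac_cusp N A c) hx1 hx2
  show redL A (cuspField N c) (hasGaussFrac_cusp N A c) ⟨cuspEquiv N c _, hx'⟩ =
    qExpand (ResidueField A) e (redL A (cuspField N₁ _) (hasGaussFrac_cusp N₁ A _)
      ⟨cuspEquiv N₁ _ x, hx⟩)
  rw [← key]
  congr 1
  apply Subtype.ext
  exact (cuspFieldMap_cuspEquiv he c x).symm

/-- **the commuting square of reductions** -/
theorem redCusp_incl (he : N₁ * e = N) (c : I0 N) (x : FN N₁)
    (hx : x ∈ (redDataCusp N₁ A (proj (Dvd.intro e he) c)).Rw)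
    (hx' : inclFN (Dvd.intro e he) x ∈ (redDataCusp N A c).Rw) :
    (redDataCusp N A c).red ⟨inclFN (Dvd.intro e he) x, hx'⟩ =
      fresCuspMap A he c ((redDataCusp N₁ A (proj (Dvd.intro e he) c)).red ⟨x, hx⟩) := by
  apply Subtype.ext
  rw [coe_fresCuspMap]
  exact coe_redCusp_incl A he c x hx hx'

end RedData

/-! ### The cusp `∞` is the Gauss valuation of GATE-J/K -/

section Infty

variable (N : ℕ) [NeZero N] (A : ValuationSubring Kbar)

theorem qExpand_mem_cuspField_idx₀ :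
    ∀ x ∈ modularFunctionFieldBar N, qExpand Kbar N x ∈ cuspField N (idx₀ N) := by
  intro x hx
  exact ⟨⟨x, hx⟩, cuspSigma_idx₀ (N := N) ⟨x, hx⟩⟩

theorem substF_eq_cuspEquiv_idx₀ (x : FN N) :
    Subst.substF (qExpand Kbar N) (modularFunctionFieldBar N) (cuspField N (idx₀ N))
      (qExpand_mem_cuspField_idx₀ N) x = cuspEquiv N (idx₀ N) x := by
  apply Subtype.ext
  rw [Subst.coe_substF, coe_cuspEquiv, cuspSigma_idx₀]

/-- the cusp valuation at `∞` is the Gauss valuation `RwBar` of the `q`-expansion -/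
theorem mem_RwCusp_idx₀_iff (x : FN N) :
    x ∈ (redDataCusp N A (idx₀ N)).Rw ↔ x ∈ RwBar N A := by
  rw [mem_RwCusp_iff, ← substF_eq_cuspEquiv_idx₀ N x]
  exact (Subst.mem_Rw_iff A (qExpand Kbar N) (qExpand A N) (qExpand (ResidueField A) N)
    (Subst.emb_qExpand A N) (Subst.rd_qExpand A N) _ _ (qExpand_mem_cuspField_idx₀ N)
    (hasGaussFrac_bar N A) (hasGaussFrac_cusp N A (idx₀ N)) x).symm

theorem RwCusp_idx₀ : (redDataCusp N A (idx₀ N)).Rw = RwBar N A := by
  ext x
  exact mem_RwCusp_idx₀_iff N A x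

/-- the reduction at the cusp `∞` is the reduction of the `q`-expansion, in the variable `t^N` -/
theorem coe_redCusp_idx₀ (x : FN N) (hx : x ∈ RwBar N A)
    (hx' : x ∈ (redDataCusp N A (idx₀ N)).Rw) :
    (((redDataCusp N A (idx₀ N)).red ⟨x, hx'⟩ : FresCusp N A (idx₀ N)) :
        LaurentSeries (ResidueField A)) =
      qExpand (ResidueField A) N
        (((redDataBar N A).red ⟨x, hx⟩ : FresBar N A) : LaurentSeries (ResidueField A)) := by
  have hx2 : Subst.substF (qExpand Kbar N) (modularFunctionFieldBar N) (cuspField N (idx₀ N))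
      (qExpand_mem_cuspField_idx₀ N) x ∈
      Rw A (cuspField N (idx₀ N)) (hasGaussFrac_cusp N A (idx₀ N)) := by
    rw [substF_eq_cuspEquiv_idx₀]
    exact hx'
  have key := Subst.redL_substF A (qExpand Kbar N) (qExpand A N) (qExpand (ResidueField A) N)
    (Subst.emb_qExpand A N) (Subst.rd_qExpand A N) _ _ (qExpand_mem_cuspField_idx₀ N)
    (hasGaussFrac_bar N A) (hasGaussFrac_cusp N A (idx₀ N)) hx hx2
  show redL A (cuspField N (idx₀ N)) (hasGaussFrac_cusp N A (idx₀ N))
    ⟨cuspEquiv N (idx₀ N) x, hx'⟩ =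
    qExpand (ResidueField A) N (redL A (modularFunctionFieldBar N) (hasGaussFrac_bar N A) ⟨x, hx⟩)
  rw [← key]
  congr 1
  apply Subtype.ext
  exact (substF_eq_cuspEquiv_idx₀ N x).symm

end Infty

/-! ### Table entries: cusps of level `N` lying over the cusp `∞` of level `N₁` -/

section Entries

variable {N₁ N e : ℕ} [NeZero N₁] [NeZero N] [NeZero e] (A : ValuationSubring Kbar)

/-- **table entry**: if `N₁` divides the lower left entry of `rep c` (e.g. `c = ∞`, or `c = 1/(q M')`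
at level `N = q² M'` with `N₁ = q M'`), the cusp valuation `w_c` of `F_N` lies over the Gauss
valuation (`q`-expansion at `∞`) of `F_{N₁}` -/
theorem mem_RwCusp_incl_of_dvd (he : N₁ * e = N) (c : I0 N) (hc : (N₁ : ℤ) ∣ (rep N c) 1 0)
    (x : FN N₁) :
    inclFN (Dvd.intro e he) x ∈ (redDataCusp N A c).Rw ↔ x ∈ RwBar N₁ A := by
  rw [mem_RwCusp_incl A he c x, (proj_eq_idx₀_iff (Dvd.intro e he) c).mpr hc]
  exact mem_RwCusp_idx₀_iff N₁ A x

/-- **table entry** `(π; w₁ → w₁')`: the Gauss valuation of `F_N` restricts to the Gauss valuation of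
`F_{N₁}` -/
theorem mem_RwBar_incl (he : N₁ * e = N) (x : FN N₁) :
    inclFN (Dvd.intro e he) x ∈ RwBar N A ↔ x ∈ RwBar N₁ A := by
  rw [← mem_RwCusp_idx₀_iff N A, mem_RwCusp_incl A he (idx₀ N) x, proj_idx₀]
  exact mem_RwCusp_idx₀_iff N₁ A x

end Entries

end Fermat.Agent.GL.Table
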