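/-
GATE-L / DEGEN-K0 + K0-ROWS (helper67).

The two degeneracy maps over an ARBITRARY constant field `L` (in particular over helper45's
unramified base `K₀ = K0 A`), on the fields `L(X₀(N)) = modularFunctionFieldFullC L N`:

* `inclC L h : L(X₀(N₁)) →ₐ[L] L(X₀(N))`  (`N₁ ∣ N`, the inclusion; `π^*`),
  `alphaC L N ℓ := inclC L (dvd_mul_right N ℓ)`;
* `betaC L N ℓ : L(X₀(N)) →ₐ[L] L(X₀(N ℓ))`, `x(q) ↦ x(q^ℓ)`  (`π'^*`);
* the base-change squares with helper26's `toFN N ι₀ : L(X₀(N)) →+* F_N` and the `ℚ̄`-level maps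
  `inclFN` (my `CuspRestrict`), `alphaB`, `betaB` (`GJ/HN/Degree`);
* a GENERIC transport lemma: a `ℚ̄`-level table row `φ x ∈ W ↔ x ∈ W₁` descends to the comaps along
  the base-change maps (`comap_row`);
* the `π`-rows over `K₀` for `w₁` (`RwK0`) and for the cusp valuations (`RwCuspK0`).
-/
import Fermat.Agent.GL.Table.CuspRestrict
import Fermat.Agent.GL.Val.CuspK0
import Fermat.Agent.GL.Val.SecondK0Hall
import Fermat.Agent.GL.AL.TableW
import Fermat.Agent.GJ.HN.Degree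

set_option autoImplicit false

noncomputable section

namespace Fermat.Agent.GL.Table.K0

open HahnSeries ModularCurve IsLocalRing CongruenceSubgroup
open Fermat.Agent.S24 Fermat.Agent.S28 Fermat.Agent.S28.CuspExp Fermat.Agent.S28.Assemble
open Fermat.Agent.S24_helper62 Fermat.Agent.S24.Degree
open Fermat.Agent.GJ.J1 Fermat.Agent.GJ.J1.Val Fermat.Agent.GJ.HN
open Fermat.Agent.GL.CuspVal Fermat.Agent.GL.Val.CuspCoeff Fermat.Agent.GL.Val.GaussK0
open Fermat.Agent.GL.Val.CuspK0 Fermat.Agent.GL.Table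
open Fermat.Agent.Common_helper32

/-! ### The degeneracy maps over an arbitrary constant field -/

section General

variable (L : Type*) [Field L]

/-- the inclusion `L(X₀(N₁)) → L(X₀(N))`, `N₁ ∣ N` -/
def inclC {N₁ N : ℕ} [NeZero N₁] [NeZero N] (h : N₁ ∣ N) :
    modularFunctionFieldFullC L N₁ →ₐ[L] modularFunctionFieldFullC L N :=
  IntermediateField.inclusion (full_degeneracyC_le L h)

@[simp]
theorem coe_inclC {N₁ N : ℕ} [NeZero N₁] [NeZero N] (h : N₁ ∣ N)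
    (x : modularFunctionFieldFullC L N₁) :
    ((inclC L h x : modularFunctionFieldFullC L N) : LaurentSeries L) = (x : LaurentSeries L) :=
  IntermediateField.coe_inclusion _ x

theorem inclC_injective {N₁ N : ℕ} [NeZero N₁] [NeZero N] (h : N₁ ∣ N) :
    Function.Injective (inclC L h) := (inclC L h).toRingHom.injective

/-- `π^*` : the inclusion `L(X₀(N)) → L(X₀(N ℓ))` -/
def alphaC (N ℓ : ℕ) [NeZero N] [NeZero ℓ] :
    modularFunctionFieldFullC L N →ₐ[L] modularFunctionFieldFullC L (N * ℓ) :=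
  inclC L (dvd_mul_right N ℓ)

@[simp]
theorem coe_alphaC (N ℓ : ℕ) [NeZero N] [NeZero ℓ] (x : modularFunctionFieldFullC L N) :
    ((alphaC L N ℓ x : modularFunctionFieldFullC L (N * ℓ)) : LaurentSeries L) =
      (x : LaurentSeries L) :=
  coe_inclC L _ x

theorem alphaC_injective (N ℓ : ℕ) [NeZero N] [NeZero ℓ] : Function.Injective (alphaC L N ℓ) :=
  inclC_injective L _

theorem qExpand_mem_fullC (N ℓ : ℕ) [NeZero N] [NeZero ℓ] {x : LaurentSeries L}
    (hx : x ∈ modularFunctionFieldFullC L N) :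
    qExpand L ℓ x ∈ modularFunctionFieldFullC L (N * ℓ) :=
  full_degeneracyC_map_le L N ℓ ⟨x, hx, rfl⟩

/-- `π'^*` : `x(q) ↦ x(q^ℓ)`, `L(X₀(N)) → L(X₀(N ℓ))` -/
def betaC (N ℓ : ℕ) [NeZero N] [NeZero ℓ] :
    modularFunctionFieldFullC L N →ₐ[L] modularFunctionFieldFullC L (N * ℓ) where
  toFun x := ⟨qExpand L ℓ (x : LaurentSeries L), qExpand_mem_fullC L N ℓ x.2⟩
  map_one' := Subtype.ext (map_one (qExpand L ℓ))
  map_mul' _ _ := Subtype.ext (map_mul (qExpand L ℓ) _ _)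
  map_zero' := Subtype.ext (map_zero (qExpand L ℓ))
  map_add' _ _ := Subtype.ext (map_add (qExpand L ℓ) _ _)
  commutes' a := Subtype.ext <| by
    show qExpand L ℓ (algebraMap L (LaurentSeries L) a) = algebraMap L (LaurentSeries L) a
    rw [algebraMap_laurentSeries_eq_single, qExpand_single, mul_zero]

@[simp]
theorem coe_betaC (N ℓ : ℕ) [NeZero N] [NeZero ℓ] (x : modularFunctionFieldFullC L N) :
    ((betaC L N ℓ x : modularFunctionFieldFullC L (N * ℓ)) : LaurentSeries L) =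
      qExpand L ℓ (x : LaurentSeries L) := rfl

theorem betaC_injective (N ℓ : ℕ) [NeZero N] [NeZero ℓ] : Function.Injective (betaC L N ℓ) :=
  (betaC L N ℓ).toRingHom.injective

end General

/-! ### The squares with the base change to `ℚ̄` -/

section Squares

variable {L : Type*} [Field L] (ι₀ : L →+* Kbar)

theorem toFN_inclC {N₁ N : ℕ} [NeZero N₁] [NeZero N] (h : N₁ ∣ N)
    (x : modularFunctionFieldFullC L N₁) :
    toFN N ι₀ (inclC L h x) = inclFN h (toFN N₁ ι₀ x) := by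
  apply Subtype.ext
  rw [coe_toFN, coe_inclC, coe_inclFN, coe_toFN]

theorem toFN_alphaC (N ℓ : ℕ) [NeZero N] [NeZero ℓ] (x : modularFunctionFieldFullC L N) :
    toFN (N * ℓ) ι₀ (alphaC L N ℓ x) = alphaB N ℓ (toFN N ι₀ x) := by
  apply Subtype.ext
  rw [coe_toFN, coe_alphaC, coe_heckeAlphaBar, coe_toFN]

theorem toFN_betaC (N ℓ : ℕ) [NeZero N] [NeZero ℓ] (x : modularFunctionFieldFullC L N) :
    toFN (N * ℓ) ι₀ (betaC L N ℓ x) = betaB N ℓ (toFN N ι₀ x) := by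
  apply Subtype.ext
  rw [coe_toFN, coe_betaC, coe_heckeBetaBar, coe_toFN, coeffMap_qExpand]

/-- `alphaB` is `inclFN` -/
theorem alphaB_eq_inclFN (N ℓ : ℕ) [NeZero N] [NeZero ℓ] (x : FN N) :
    alphaB N ℓ x = inclFN (dvd_mul_right N ℓ) x := by
  apply Subtype.ext
  rw [coe_heckeAlphaBar, coe_inclFN]

end Squares

/-! ### Generic transport of a table row -/

section Transport

variable {F₁ F E₁ E : Type*} [Field F₁] [Field F] [Field E₁] [Field E]

/-- a row `φ x ∈ W ↔ x ∈ W₁` of the table over the big fields descends along a commutative square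
to the comaps -/
theorem comap_row (φ : E₁ →+* E) (φ₀ : F₁ →+* F) (t₁ : F₁ →+* E₁) (t : F →+* E)
    (hsq : ∀ y, t (φ₀ y) = φ (t₁ y)) (W : ValuationSubring E) (W₁ : ValuationSubring E₁)
    (hrow : ∀ x, φ x ∈ W ↔ x ∈ W₁) (y : F₁) :
    φ₀ y ∈ W.comap t ↔ y ∈ W₁.comap t₁ := by
  rw [ValuationSubring.mem_comap, ValuationSubring.mem_comap, hsq, hrow]

theorem comap_row_eq (φ : E₁ →+* E) (φ₀ : F₁ →+* F) (t₁ : F₁ →+* E₁) (t : F →+* E)
    (hsq : ∀ y, t (φ₀ y) = φ (t₁ y)) (W : ValuationSubring E) (W₁ : ValuationSubring E₁)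
    (hrow : ∀ x, φ x ∈ W ↔ x ∈ W₁) :
    (W.comap t).comap φ₀ = W₁.comap t₁ := by
  ext y
  rw [ValuationSubring.mem_comap]
  exact comap_row φ φ₀ t₁ t hsq W W₁ hrow y

end Transport

/-! ### The `w₁`-rows over an arbitrary base `(L, A)` -/

section RowsC

open Fermat.Agent.GK.Val.GaussBase Fermat.Agent.GL.Table.Subst

variable {L : Type*} [Field L] (A : ValuationSubring L)

local notation "𝕜" => ResidueField A

section Incl

variable {N₁ N : ℕ} [NeZero N₁] [NeZero N] (h : N₁ ∣ N)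

theorem substF_id_eq_inclC (x : modularFunctionFieldFullC L N₁) :
    substF (RingHom.id (LaurentSeries L)) (modularFunctionFieldFullC L N₁)
      (modularFunctionFieldFullC L N) (fun _ hy => full_degeneracyC_le L h hy) x = inclC L h x :=
  Subtype.ext (by rw [coe_substF, coe_inclC]; rfl)

/-- **row `(π; w₁ → w₁')` over any base**: the Gauss valuation of `L(X₀(N))` restricts to the Gauss
valuation of `L(X₀(N₁))` -/
theorem mem_RwC_inclC (x : modularFunctionFieldFullC L N₁) :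
    inclC L h x ∈ RwC L A N ↔ x ∈ RwC L A N₁ := by
  rw [← substF_id_eq_inclC h x]
  exact (Subst.mem_Rw_iff A (RingHom.id _) (RingHom.id _) (RingHom.id _) (fun _ => rfl)
    (fun _ => rfl) _ _ (fun _ hy => full_degeneracyC_le L h hy) (hasGaussFrac_fullC L A N₁)
    (hasGaussFrac_fullC L A N) x).symm

theorem comap_inclC_RwC : (RwC L A N).comap (inclC L h : _ →+* _) = RwC L A N₁ := by
  ext x
  rw [ValuationSubring.mem_comap]
  exact mem_RwC_inclC A h x

/-- the reductions agree (as series over the residue field) -/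
theorem redL_inclC {x : modularFunctionFieldFullC L N₁} (hx : x ∈ RwC L A N₁)
    (hx' : inclC L h x ∈ RwC L A N) :
    redL A _ (hasGaussFrac_fullC L A N) ⟨inclC L h x, hx'⟩ =
      redL A _ (hasGaussFrac_fullC L A N₁) ⟨x, hx⟩ := by
  have e := substF_id_eq_inclC h x
  have hx'' : substF (RingHom.id (LaurentSeries L)) (modularFunctionFieldFullC L N₁)
      (modularFunctionFieldFullC L N) (fun _ hy => full_degeneracyC_le L h hy) x ∈ RwC L A N := by
    rw [e]; exact hx'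
  have h1 := Subst.redL_substF A (RingHom.id _) (RingHom.id _) (RingHom.id _) (fun _ => rfl)
    (fun _ => rfl) _ _ (fun _ hy => full_degeneracyC_le L h hy) (hasGaussFrac_fullC L A N₁)
    (hasGaussFrac_fullC L A N) hx hx''
  rw [RingHom.id_apply] at h1
  rw [← h1]
  congr 1

include h in
/-- the residue fields are nested inside `k((Q))` -/
theorem FresC_le : FresC L A N₁ ≤ FresC L A N := by
  intro y hy
  rw [mem_Fres_iff] at hy ⊢
  obtain ⟨x, rfl⟩ := hy
  exact ⟨⟨inclC L h x.1, (mem_RwC_inclC A h x.1).2 x.2⟩, redL_inclC A h x.2 _⟩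

/-- the residue map `k(w₁') → k(w₁)` of the row -/
def fresInclC : FresC L A N₁ →ₐ[𝕜] FresC L A N := IntermediateField.inclusion (FresC_le A h)

@[simp]
theorem coe_fresInclC (y : FresC L A N₁) :
    ((fresInclC A h y : FresC L A N) : LaurentSeries 𝕜) = (y : LaurentSeries 𝕜) :=
  IntermediateField.coe_inclusion _ y

/-- **commuting square of reductions for `π`** -/
theorem red_inclC (x : RwC L A N₁) :
    (redDataC L A N).red ⟨inclC L h x.1, (mem_RwC_inclC A h x.1).2 x.2⟩ =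
      fresInclC A h ((redDataC L A N₁).red x) := by
  apply Subtype.ext
  rw [coe_fresInclC]
  exact redL_inclC A h x.2 _

end Incl

section Beta

variable (N ℓ : ℕ) [NeZero N] [NeZero ℓ]

theorem substF_qExpand_eq_betaC (x : modularFunctionFieldFullC L N) :
    substF (qExpand L ℓ) (modularFunctionFieldFullC L N)
      (modularFunctionFieldFullC L (N * ℓ)) (fun _ hy => qExpand_mem_fullC L N ℓ hy) x =
        betaC L N ℓ x :=
  Subtype.ext (by rw [coe_substF, coe_betaC])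

/-- **row `(π'; w₁ → w₁')` over any base** -/
theorem mem_RwC_betaC (x : modularFunctionFieldFullC L N) :
    betaC L N ℓ x ∈ RwC L A (N * ℓ) ↔ x ∈ RwC L A N := by
  rw [← substF_qExpand_eq_betaC N ℓ x]
  exact (Subst.mem_Rw_iff A (qExpand L ℓ) (qExpand A ℓ) (qExpand 𝕜 ℓ) (emb_qExpand A ℓ)
    (rd_qExpand A ℓ) _ _ (fun _ hy => qExpand_mem_fullC L N ℓ hy) (hasGaussFrac_fullC L A N)
    (hasGaussFrac_fullC L A (N * ℓ)) x).symm

theorem comap_betaC_RwC : (RwC L A (N * ℓ)).comap (betaC L N ℓ : _ →+* _) = RwC L A N := by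
  ext x
  rw [ValuationSubring.mem_comap]
  exact mem_RwC_betaC A N ℓ x

/-- the reduction of `x(q^ℓ)` is `x~(Q^ℓ)` -/
theorem redL_betaC {x : modularFunctionFieldFullC L N} (hx : x ∈ RwC L A N)
    (hx' : betaC L N ℓ x ∈ RwC L A (N * ℓ)) :
    redL A _ (hasGaussFrac_fullC L A (N * ℓ)) ⟨betaC L N ℓ x, hx'⟩ =
      qExpand 𝕜 ℓ (redL A _ (hasGaussFrac_fullC L A N) ⟨x, hx⟩) := by
  have e := substF_qExpand_eq_betaC (L := L) N ℓ x
  have hx'' : substF (qExpand L ℓ) (modularFunctionFieldFullC L N)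
      (modularFunctionFieldFullC L (N * ℓ)) (fun _ hy => qExpand_mem_fullC L N ℓ hy) x ∈
        RwC L A (N * ℓ) := by
    rw [e]; exact hx'
  have h1 := Subst.redL_substF A (qExpand L ℓ) (qExpand A ℓ) (qExpand 𝕜 ℓ) (emb_qExpand A ℓ)
    (rd_qExpand A ℓ) _ _ (fun _ hy => qExpand_mem_fullC L N ℓ hy) (hasGaussFrac_fullC L A N)
    (hasGaussFrac_fullC L A (N * ℓ)) hx hx''
  rw [← h1]
  congr 1

theorem qExpand_mem_FresC {y : LaurentSeries 𝕜} (hy : y ∈ FresC L A N) :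
    qExpand 𝕜 ℓ y ∈ FresC L A (N * ℓ) := by
  rw [mem_Fres_iff] at hy ⊢
  obtain ⟨x, rfl⟩ := hy
  exact ⟨⟨betaC L N ℓ x.1, (mem_RwC_betaC A N ℓ x.1).2 x.2⟩, redL_betaC A N ℓ x.2 _⟩

/-- the residue map `k(w₁') → k(w₁)`, `y(Q) ↦ y(Q^ℓ)`, of the row -/
def fresBetaC : FresC L A N →ₐ[𝕜] FresC L A (N * ℓ) where
  toFun y := ⟨qExpand 𝕜 ℓ (y : LaurentSeries 𝕜), qExpand_mem_FresC A N ℓ y.2⟩
  map_one' := Subtype.ext (map_one (qExpand 𝕜 ℓ))
  map_mul' _ _ := Subtype.ext (map_mul (qExpand 𝕜 ℓ) _ _)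
  map_zero' := Subtype.ext (map_zero (qExpand 𝕜 ℓ))
  map_add' _ _ := Subtype.ext (map_add (qExpand 𝕜 ℓ) _ _)
  commutes' a := Subtype.ext <| by
    show qExpand 𝕜 ℓ (algebraMap 𝕜 (LaurentSeries 𝕜) a) = algebraMap 𝕜 (LaurentSeries 𝕜) a
    rw [algebraMap_laurentSeries_eq_single, qExpand_single, mul_zero]

@[simp]
theorem coe_fresBetaC (y : FresC L A N) :
    ((fresBetaC A N ℓ y : FresC L A (N * ℓ)) : LaurentSeries 𝕜) =
      qExpand 𝕜 ℓ (y : LaurentSeries 𝕜) := rfl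

/-- **commuting square of reductions for `π'`** -/
theorem red_betaC (x : RwC L A N) :
    (redDataC L A (N * ℓ)).red ⟨betaC L N ℓ x.1, (mem_RwC_betaC A N ℓ x.1).2 x.2⟩ =
      fresBetaC A N ℓ ((redDataC L A N).red x) := by
  apply Subtype.ext
  rw [coe_fresBetaC]
  exact redL_betaC A N ℓ x.2 _

end Beta

end RowsC

/-! ### The rows over `K₀` -/

section RowsK0

open Fermat.Agent.GL.Val.SecondK0

variable (A : ValuationSubring Qb)

/-- helper45's and helper26's base-change maps agree -/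
theorem mapK0Bar_eq_toFN0 (N : ℕ) [NeZero N] (x : modularFunctionFieldFullC (K0 A) N) :
    mapK0Bar A N x = toFN0 A N x := Subtype.ext rfl

variable {N₁ N e : ℕ} [NeZero N₁] [NeZero N] [NeZero e] (he : N₁ * e = N)

/-- the inclusion over `K₀` -/
abbrev inclK0 (h : N₁ ∣ N) :
    modularFunctionFieldFullC (K0 A) N₁ →ₐ[K0 A] modularFunctionFieldFullC (K0 A) N :=
  inclC (K0 A) h

theorem toFN0_inclK0 (h : N₁ ∣ N) (x : modularFunctionFieldFullC (K0 A) N₁) :
    toFN0 A N (inclK0 A h x) = inclFN h (toFN0 A N₁ x) :=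
  toFN_inclC (ι0 A) h x

/-- **row `(π; w₁ → w₁')` over `K₀`** -/
theorem mem_RwK0_inclK0 (h : N₁ ∣ N) (x : modularFunctionFieldFullC (K0 A) N₁) :
    inclK0 A h x ∈ RwK0 A N ↔ x ∈ RwK0 A N₁ :=
  mem_RwC_inclC (R0 A) h x

/-- **row `(π; w_c → w_{proj c})` over `K₀`, every cusp `c`** -/
theorem mem_RwCuspK0_inclK0 (c : I0 N) (x : modularFunctionFieldFullC (K0 A) N₁) :
    inclK0 A (Dvd.intro e he) x ∈ RwCuspK0 A N c ↔
      x ∈ RwCuspK0 A N₁ (proj (Dvd.intro e he) c) := by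
  rw [mem_RwCuspK0_iff, mem_RwCuspK0_iff, toFN0_inclK0, mem_RwCusp_incl A he]

theorem comap_inclK0_RwCuspK0 (c : I0 N) :
    (RwCuspK0 A N c).comap (inclK0 A (Dvd.intro e he) : _ →+* _) =
      RwCuspK0 A N₁ (proj (Dvd.intro e he) c) := by
  ext x
  rw [ValuationSubring.mem_comap]
  exact mem_RwCuspK0_inclK0 A he c x

/-- the cusp valuation at `∞` over `K₀` is `w₁` over `K₀` -/
theorem RwCuspK0_idx₀ : RwCuspK0 A N (idx₀ N) = RwK0 A N := by
  ext x
  rw [mem_RwCuspK0_iff, mem_RwCusp_idx₀_iff, mem_RwK0_iff_mem_RwBar, toFN0_eq]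

/-- **row `(π; w₃ → w₁')` over `K₀`**: a cusp `c` of level `N` whose representative has bottom-left
entry divisible by `N₁` lies over the cusp `∞` of level `N₁` -/
theorem mem_RwCuspK0_inclK0_of_dvd (c : I0 N) (hdvd : (N₁ : ℤ) ∣ (rep N c) 1 0)
    (x : modularFunctionFieldFullC (K0 A) N₁) :
    inclK0 A (Dvd.intro e he) x ∈ RwCuspK0 A N c ↔ x ∈ RwK0 A N₁ := by
  rw [mem_RwCuspK0_iff, toFN0_inclK0, mem_RwCusp_incl_of_dvd A he c hdvd,
    mem_RwK0_iff_mem_RwBar, toFN0_eq]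

theorem comap_inclK0_RwCuspK0_of_dvd (c : I0 N) (hdvd : (N₁ : ℤ) ∣ (rep N c) 1 0) :
    (RwCuspK0 A N c).comap (inclK0 A (Dvd.intro e he) : _ →+* _) = RwK0 A N₁ := by
  ext x
  rw [ValuationSubring.mem_comap]
  exact mem_RwCuspK0_inclK0_of_dvd A he c hdvd x

end RowsK0

/-! ### The rows for `π = alphaK0`, `π' = betaK0` at the valuations `w₁`, `w₂` over `K₀` -/

section RowsW

open Fermat.Agent.GL.Val.SecondK0 Fermat.Agent.GL.Val.SecondK0Hall Fermat.Agent.GK.AL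
  Fermat.Agent.GL.AL Fermat.Agent.GL.AL.TableW Fermat.Agent.S24_helper82

variable (A : ValuationSubring Qb)

/-- `π^*` over `K₀` -/
abbrev alphaK0 (N ℓ : ℕ) [NeZero N] [NeZero ℓ] :
    modularFunctionFieldFullC (K0 A) N →ₐ[K0 A] modularFunctionFieldFullC (K0 A) (N * ℓ) :=
  alphaC (K0 A) N ℓ

/-- `π'^*` over `K₀` -/
abbrev betaK0 (N ℓ : ℕ) [NeZero N] [NeZero ℓ] :
    modularFunctionFieldFullC (K0 A) N →ₐ[K0 A] modularFunctionFieldFullC (K0 A) (N * ℓ) :=
  betaC (K0 A) N ℓ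

theorem mapK0Bar_alphaK0 (N ℓ : ℕ) [NeZero N] [NeZero ℓ]
    (x : modularFunctionFieldFullC (K0 A) N) :
    mapK0Bar A (N * ℓ) (alphaK0 A N ℓ x) = alphaB N ℓ (mapK0Bar A N x) := by
  rw [mapK0Bar_eq_toFN0, mapK0Bar_eq_toFN0]
  exact toFN_alphaC (ι0 A) N ℓ x

theorem mapK0Bar_betaK0 (N ℓ : ℕ) [NeZero N] [NeZero ℓ]
    (x : modularFunctionFieldFullC (K0 A) N) :
    mapK0Bar A (N * ℓ) (betaK0 A N ℓ x) = betaB N ℓ (mapK0Bar A N x) := by
  rw [mapK0Bar_eq_toFN0, mapK0Bar_eq_toFN0]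
  exact toFN_betaC (ι0 A) N ℓ x

/-- (T1) over `K₀`: `w₁(α x) ≥ 0 ↔ w₁'(x) ≥ 0` (any level, any `ℓ`) -/
theorem alphaK0_mem_RwK0_iff (N ℓ : ℕ) [NeZero N] [NeZero ℓ]
    (x : modularFunctionFieldFullC (K0 A) N) :
    alphaK0 A N ℓ x ∈ RwK0 A (N * ℓ) ↔ x ∈ RwK0 A N :=
  mem_RwC_inclC (R0 A) (dvd_mul_right N ℓ) x

/-- (T2) over `K₀`: `w₁(β x) ≥ 0 ↔ w₁'(x) ≥ 0` (any level, any `ℓ`) -/
theorem betaK0_mem_RwK0_iff (N ℓ : ℕ) [NeZero N] [NeZero ℓ]
    (x : modularFunctionFieldFullC (K0 A) N) :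
    betaK0 A N ℓ x ∈ RwK0 A (N * ℓ) ↔ x ∈ RwK0 A N :=
  mem_RwC_betaC (R0 A) N ℓ x

variable {q : ℕ} (M' : ℕ) [NeZero M'] [NeZero q]
  (hQ : HallDvd (q ^ 2) (M' * q * q)) (hq : ExactDvd q (M' * q))

/-- (T3) over `K₀`: `w₂(α x) ≥ 0 ↔ w₂'(x) ≥ 0` -/
theorem alphaK0_mem_Rw2QK0_iff (x : modularFunctionFieldFullC (K0 A) (M' * q)) :
    alphaK0 A (M' * q) q x ∈ (redData2QK0 A (M' * q * q) hQ).Rw ↔
      x ∈ (redData2K0 A (M' * q) hq).Rw := by
  rw [mem_Rw2QK0_iff, mem_Rw2K0_iff, mapK0Bar_alphaK0]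
  exact alphaB_mem_Rw2Q_iff M' A hQ hq _

/-- (T4) over `K₀`: `w₂(β x) ≥ 0 ↔ w₂'(x) ≥ 0` -/
theorem betaK0_mem_Rw2QK0_iff (x : modularFunctionFieldFullC (K0 A) (M' * q)) :
    betaK0 A (M' * q) q x ∈ (redData2QK0 A (M' * q * q) hQ).Rw ↔
      x ∈ (redData2K0 A (M' * q) hq).Rw := by
  rw [mem_Rw2QK0_iff, mem_Rw2K0_iff, mapK0Bar_betaK0]
  exact betaB_mem_Rw2Q_iff M' A hQ hq _

theorem comap_alphaK0_Rw2QK0 :
    (redData2QK0 A (M' * q * q) hQ).Rw.comap (alphaK0 A (M' * q) q : _ →+* _) =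
      (redData2K0 A (M' * q) hq).Rw := by
  ext x
  rw [ValuationSubring.mem_comap]
  exact alphaK0_mem_Rw2QK0_iff A M' hQ hq x

theorem comap_betaK0_Rw2QK0 :
    (redData2QK0 A (M' * q * q) hQ).Rw.comap (betaK0 A (M' * q) q : _ →+* _) =
      (redData2K0 A (M' * q) hq).Rw := by
  ext x
  rw [ValuationSubring.mem_comap]
  exact betaK0_mem_Rw2QK0_iff A M' hQ hq x

theorem coeffMap_resMapK0_injective :
    Function.Injective (coeffMap (resMapK0 A) :
      LaurentSeries (ResidueField (R0 A)) → LaurentSeries (ResidueField A)) := by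
  intro x y hxy
  ext n
  apply (resMapK0 A).injective
  rw [← coeffMap_coeff, ← coeffMap_coeff, hxy]

/-- (T3) over `K₀`, reductions: `red₂ (α x) = (red₂' x)(X^q)` -/
theorem coe_red2QK0_alphaK0 (x : modularFunctionFieldFullC (K0 A) (M' * q))
    (hx : x ∈ (redData2K0 A (M' * q) hq).Rw)
    (hx' : alphaK0 A (M' * q) q x ∈ (redData2QK0 A (M' * q * q) hQ).Rw) :
    (((redData2QK0 A (M' * q * q) hQ).red ⟨alphaK0 A (M' * q) q x, hx'⟩ :
        FresK0 A (M' * q * q)) : LaurentSeries (ResidueField (R0 A))) =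
      qExpand (ResidueField (R0 A)) q
        (((redData2K0 A (M' * q) hq).red ⟨x, hx⟩ : FresK0 A (M' * q)) :
          LaurentSeries (ResidueField (R0 A))) := by
  apply coeffMap_resMapK0_injective A
  have h1 : mapK0Bar A (M' * q) x ∈ (redData2 (M' * q) A hq).Rw :=
    (mem_Rw2K0_iff A (M' * q) hq x).1 hx
  have h2 : mapK0Bar A (M' * q * q) (alphaK0 A (M' * q) q x) ∈
      (redData2Q (M' * q * q) A hQ).Rw := (mem_Rw2QK0_iff A (M' * q * q) hQ _).1 hx'
  rw [← coe_red2QK0 A (M' * q * q) hQ _ hx' h2, coeffMap_qExpand,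
    ← coe_red2K0 A (M' * q) hq x hx h1]
  have h3 : alphaB (M' * q) q (mapK0Bar A (M' * q) x) ∈ (redData2Q (M' * q * q) A hQ).Rw := by
    rw [← mapK0Bar_alphaK0]; exact h2
  rw [← coe_red2Q_alphaB M' A hQ hq _ h1 h3]
  congr 3

/-- (T4) over `K₀`, reductions: `red₂ (β x) = red₂' x` -/
theorem coe_red2QK0_betaK0 (x : modularFunctionFieldFullC (K0 A) (M' * q))
    (hx : x ∈ (redData2K0 A (M' * q) hq).Rw)
    (hx' : betaK0 A (M' * q) q x ∈ (redData2QK0 A (M' * q * q) hQ).Rw) :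
    (((redData2QK0 A (M' * q * q) hQ).red ⟨betaK0 A (M' * q) q x, hx'⟩ :
        FresK0 A (M' * q * q)) : LaurentSeries (ResidueField (R0 A))) =
      (((redData2K0 A (M' * q) hq).red ⟨x, hx⟩ : FresK0 A (M' * q)) :
          LaurentSeries (ResidueField (R0 A))) := by
  apply coeffMap_resMapK0_injective A
  have h1 : mapK0Bar A (M' * q) x ∈ (redData2 (M' * q) A hq).Rw :=
    (mem_Rw2K0_iff A (M' * q) hq x).1 hx
  have h2 : mapK0Bar A (M' * q * q) (betaK0 A (M' * q) q x) ∈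
      (redData2Q (M' * q * q) A hQ).Rw := (mem_Rw2QK0_iff A (M' * q * q) hQ _).1 hx'
  rw [← coe_red2QK0 A (M' * q * q) hQ _ hx' h2, ← coe_red2K0 A (M' * q) hq x hx h1]
  have h3 : betaB (M' * q) q (mapK0Bar A (M' * q) x) ∈ (redData2Q (M' * q * q) A hQ).Rw := by
    rw [← mapK0Bar_betaK0]; exact h2
  rw [← coe_red2Q_betaB M' A hQ hq _ h1 h3]
  congr 3
  exact mapK0Bar_betaK0 A (M' * q) q x

end RowsW

end Fermat.Agent.GL.Table.K0
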