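/-
GATE-L / K0-DEG (helper67): the degrees of the two degeneracy maps over an ARBITRARY constant field.

`L` a field of characteristic `0` with an embedding `ι₀ : L →+* ℚ̄` (e.g. `L = K0 A`, `ι₀ = ι0 A`),
`q` a prime dividing `N`.  With `alphaC L N q`, `betaC L N q : L(X₀(N)) →ₐ[L] L(X₀(N q))` of
`DegenK0`:

* `finrank_alphaC_of_dvd` : `[L(X₀(N q)) : α L(X₀(N))] = q`   (helper45 `DegBase` + tower law);
* `frickeC ι₀ N` : the Fricke involution `j(d z) ↦ j((N/d) z)` of `L(X₀(N))` (restriction of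
  helper86's `frickeAut` along `toFN`, by helper45's `AutRestrict`), `toFN_frickeC`;
* `frickeC_alphaC` : `w_{N q} ∘ α = β ∘ w_N` over `L`;
* `finrank_betaC_of_dvd` : `[L(X₀(N q)) : β L(X₀(N))] = q`;
* finiteness of both extensions; the `K₀`-specialisations.

These are the `hdeg` inputs of helper66's `Rows` and of the norm base change `K₀ → ℚ̄`.
-/
import Fermat.Agent.GL.Table.DegenK0
import Fermat.Agent.GL.Val.DegBase
import Fermat.Agent.GK.UQ.Degree

set_option autoImplicit false
set_option linter.style.haveILetI false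

noncomputable section

namespace Fermat.Agent.GL.Table.K0

open HahnSeries ModularCurve IsLocalRing AlgebraicCurve IntermediateField
open Fermat.Agent.S24 Fermat.Agent.S24_helper62 Fermat.Agent.S24.Degree
open Fermat.Agent.GJ.HN Fermat.Agent.GK.UQ
open Fermat.Agent.GL.Val.CuspCoeff Fermat.Agent.GL.Val.GaussK0 Fermat.Agent.GL.Val.DegBase
open Fermat.Agent.GL.Val.AutRestrict
open Fermat.Agent.Common_helper32

/-! ### Generators over `L` -/

section Gen

variable (L : Type*) [Field L] (N : ℕ) [NeZero N]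

/-- the generator `j(q^d)` of `L(X₀(N))` -/
def gC (d : DivIdx N) : modularFunctionFieldFullC L N :=
  haveI : NeZero d.1 := ⟨fun h0 => NeZero.ne N (Nat.eq_zero_of_zero_dvd (h0 ▸ d.2))⟩
  ⟨qExpand L d.1 (jqModC L), jqModCd_mem_full L N d.2⟩

theorem coe_gC (d : DivIdx N) [NeZero d.1] :
    ((gC L N d : modularFunctionFieldFullC L N) : LaurentSeries L) =
      qExpand L d.1 (jqModC L) := rfl

variable {L}

theorem toFN_gC (ι₀ : L →+* Kbar) (d : DivIdx N) : toFN N ι₀ (gC L N d) = gF N d := by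
  haveI : NeZero d.1 := ⟨fun h0 => NeZero.ne N (Nat.eq_zero_of_zero_dvd (h0 ▸ d.2))⟩
  apply Subtype.ext
  rw [coe_toFN, coe_gC, coeffMap_qExpand, coeffMap_jqModC]
  exact (Fermat.Agent.S24.Degree.jdSeries_eq d.1).symm

end Gen

/-! ### The degree of `α` -/

section Alpha

variable (L : Type*) [Field L] [Algebra ℚ L] {N q : ℕ} [NeZero N] [NeZero q]

theorem alphaC_jC : alphaC L N q (jC N L) = jC (N * q) L := Subtype.ext (by rw [coe_alphaC]; rfl)

/-- **degree of `L(X₀(N q)) / α L(X₀(N))`** for a prime `q ∣ N` -/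
theorem finrank_alphaC_of_dvd (hq : q.Prime) (hqN : q ∣ N) :
    letI := algebraAlong (alphaC L N q)
    Module.finrank (modularFunctionFieldFullC L N) (modularFunctionFieldFullC L (N * q)) = q := by
  have h := finrank_adjoin_tower (alphaC L N q) (jC N L)
  have e3 := dedekindPsi_mul_prime_of_dvd (NeZero.ne N) hq hqN
  have hpos : 0 < dedekindPsi N := by
    have := Fermat.Agent.S24.Comb.card_I0 N
    rw [← this]
    exact Fintype.card_pos
  rw [alphaC_jC, finrank_fullC_eq_psi, finrank_fullC_eq_psi, e3] at h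
  exact (Nat.eq_of_mul_eq_mul_left hpos h).symm

theorem finiteDimensional_alphaC (hq : q.Prime) (hqN : q ∣ N) :
    letI := algebraAlong (alphaC L N q)
    FiniteDimensional (modularFunctionFieldFullC L N) (modularFunctionFieldFullC L (N * q)) := by
  letI := algebraAlong (alphaC L N q)
  apply FiniteDimensional.of_finrank_pos
  rw [finrank_alphaC_of_dvd L hq hqN]
  exact hq.pos

end Alpha

/-! ### The Fricke involution over `L` -/

section Fricke

variable {L : Type*} [Field L] (ι₀ : L →+* Kbar) (N : ℕ) [NeZero N]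

/-- `toFN`, on the field `L(S)` in its `adjoin` form -/
def φC : IntermediateField.adjoin L (divisorExpansionsC L N) →+* FN N := toFN N ι₀

theorem φC_gen (x : LaurentSeries L) (hx : x ∈ divisorExpansionsC L N) :
    ∃ d : DivIdx N, φC ι₀ N ⟨x, IntermediateField.subset_adjoin L _ hx⟩ = gF N d := by
  obtain ⟨d, hne, hd, rfl⟩ := hx
  refine ⟨⟨d, hd⟩, ?_⟩
  rw [← toFN_gC N ι₀ ⟨d, hd⟩]
  rfl

theorem gF_mem_range_φC (d : DivIdx N) : gF N d ∈ (φC ι₀ N).range :=
  ⟨gC L N d, toFN_gC N ι₀ d⟩

theorem fricke_φC_const (c : L) :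
    ((frickeAut N : FN N ≃ₐ[Kbar] FN N) : FN N ≃+* FN N) (φC ι₀ N (algebraMap L _ c)) =
      φC ι₀ N (algebraMap L _ c) := by
  show frickeAut N (toFN N ι₀ (algebraMap L _ c)) = toFN N ι₀ (algebraMap L _ c)
  rw [toFN_algebraMap, AlgEquiv.commutes]

theorem fricke_φC_gen (x : LaurentSeries L) (hx : x ∈ divisorExpansionsC L N) :
    ((frickeAut N : FN N ≃ₐ[Kbar] FN N) : FN N ≃+* FN N)
      (φC ι₀ N ⟨x, IntermediateField.subset_adjoin L _ hx⟩) ∈ (φC ι₀ N).range := by
  obtain ⟨d, hd⟩ := φC_gen ι₀ N x hx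
  rw [hd]
  show frickeAut N (gF N d) ∈ _
  have : frickeAut N (gF N d) = gF N (swapIdx N d) := frickeEnd_gF N d
  rw [this]
  exact gF_mem_range_φC ι₀ N _

theorem fricke_symm_φC_gen (x : LaurentSeries L) (hx : x ∈ divisorExpansionsC L N) :
    ((frickeAut N : FN N ≃ₐ[Kbar] FN N) : FN N ≃+* FN N).symm
      (φC ι₀ N ⟨x, IntermediateField.subset_adjoin L _ hx⟩) ∈ (φC ι₀ N).range := by
  obtain ⟨d, hd⟩ := φC_gen ι₀ N x hx
  rw [hd]
  have : ((frickeAut N : FN N ≃ₐ[Kbar] FN N) : FN N ≃+* FN N).symm (gF N d) =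
      gF N (swapIdx N d) := by
    rw [RingEquiv.symm_apply_eq]
    show gF N d = frickeAut N (gF N (swapIdx N d))
    have h1 : frickeAut N (gF N (swapIdx N d)) = gF N (swapIdx N (swapIdx N d)) :=
      frickeEnd_gF N _
    rw [h1, swapIdx_swapIdx]
  rw [this]
  exact gF_mem_range_φC ι₀ N _

/-- **the Fricke involution of `L(X₀(N))`** -/
def frickeC : modularFunctionFieldFullC L N ≃ₐ[L] modularFunctionFieldFullC L N :=
  restrictAut (φC ι₀ N) ((frickeAut N : FN N ≃ₐ[Kbar] FN N) : FN N ≃+* FN N)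
    (fricke_φC_const ι₀ N) (fricke_φC_gen ι₀ N) (fricke_symm_φC_gen ι₀ N)

/-- `frickeC` is the restriction of `frickeAut` -/
theorem toFN_frickeC (x : modularFunctionFieldFullC L N) :
    toFN N ι₀ (frickeC ι₀ N x) = frickeAut N (toFN N ι₀ x) :=
  φ_restrictAut (φC ι₀ N) _ (fricke_φC_const ι₀ N) (fricke_φC_gen ι₀ N)
    (fricke_symm_φC_gen ι₀ N) x

theorem toFN_injective : Function.Injective (toFN N ι₀) := (toFN N ι₀).injective

theorem frickeC_gC (d : DivIdx N) : frickeC ι₀ N (gC L N d) = gC L N (swapIdx N d) := by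
  apply toFN_injective ι₀ N
  rw [toFN_frickeC, toFN_gC, toFN_gC]
  exact frickeEnd_gF N d

variable (q : ℕ) [NeZero q]

/-- **`w_{N q} ∘ α = β ∘ w_N` over `L`** -/
theorem frickeC_alphaC (x : modularFunctionFieldFullC L N) :
    frickeC ι₀ (N * q) (alphaC L N q x) = betaC L N q (frickeC ι₀ N x) := by
  apply toFN_injective ι₀ (N * q)
  rw [toFN_frickeC, toFN_alphaC, toFN_betaC, toFN_frickeC]
  exact frickeEnd_alphaB N q _

/-- **`w_{N q} ∘ β = α ∘ w_N` over `L`** -/
theorem frickeC_betaC (x : modularFunctionFieldFullC L N) :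
    frickeC ι₀ (N * q) (betaC L N q x) = alphaC L N q (frickeC ι₀ N x) := by
  apply toFN_injective ι₀ (N * q)
  rw [toFN_frickeC, toFN_alphaC, toFN_betaC, toFN_frickeC]
  exact frickeEnd_betaB N q _

end Fricke

/-! ### The degree of `β` -/

section Beta

variable {L : Type*} [Field L] [Algebra ℚ L] (ι₀ : L →+* Kbar) {N q : ℕ} [NeZero N] [NeZero q]

include ι₀ in
/-- **degree of `L(X₀(N q)) / β L(X₀(N))`** for a prime `q ∣ N` -/
theorem finrank_betaC_of_dvd (hq : q.Prime) (hqN : q ∣ N) :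
    letI := algebraAlong (betaC L N q)
    Module.finrank (modularFunctionFieldFullC L N) (modularFunctionFieldFullC L (N * q)) = q := by
  refine Eq.trans ?_ (finrank_alphaC_of_dvd L hq hqN)
  symm
  refine @Algebra.finrank_eq_of_equiv_equiv (modularFunctionFieldFullC L N)
    (modularFunctionFieldFullC L (N * q)) _ _ (algebraAlong (alphaC L N q))
    (modularFunctionFieldFullC L N) (modularFunctionFieldFullC L (N * q)) _ _
    (algebraAlong (betaC L N q))
    (frickeC ι₀ N).toRingEquiv (frickeC ι₀ (N * q)).toRingEquiv ?_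
  refine RingHom.ext fun f => ?_
  exact (frickeC_alphaC ι₀ N q f).symm

include ι₀ in
theorem finiteDimensional_betaC (hq : q.Prime) (hqN : q ∣ N) :
    letI := algebraAlong (betaC L N q)
    FiniteDimensional (modularFunctionFieldFullC L N) (modularFunctionFieldFullC L (N * q)) := by
  letI := algebraAlong (betaC L N q)
  apply FiniteDimensional.of_finrank_pos
  rw [finrank_betaC_of_dvd ι₀ hq hqN]
  exact hq.pos

end Beta

/-! ### Over `K₀` -/

section K0

variable (A : ValuationSubring Qb) {N q : ℕ} [NeZero N] [NeZero q]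

theorem finrank_alphaK0 (hq : q.Prime) (hqN : q ∣ N) :
    letI := algebraAlong (alphaK0 A N q)
    Module.finrank (modularFunctionFieldFullC (K0 A) N)
      (modularFunctionFieldFullC (K0 A) (N * q)) = q :=
  finrank_alphaC_of_dvd (K0 A) hq hqN

theorem finrank_betaK0 (hq : q.Prime) (hqN : q ∣ N) :
    letI := algebraAlong (betaK0 A N q)
    Module.finrank (modularFunctionFieldFullC (K0 A) N)
      (modularFunctionFieldFullC (K0 A) (N * q)) = q :=
  finrank_betaC_of_dvd (ι0 A) hq hqN

theorem finiteDimensional_alphaK0 (hq : q.Prime) (hqN : q ∣ N) :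
    letI := algebraAlong (alphaK0 A N q)
    FiniteDimensional (modularFunctionFieldFullC (K0 A) N)
      (modularFunctionFieldFullC (K0 A) (N * q)) :=
  finiteDimensional_alphaC (K0 A) hq hqN

theorem finiteDimensional_betaK0 (hq : q.Prime) (hqN : q ∣ N) :
    letI := algebraAlong (betaK0 A N q)
    FiniteDimensional (modularFunctionFieldFullC (K0 A) N)
      (modularFunctionFieldFullC (K0 A) (N * q)) :=
  finiteDimensional_betaC (ι0 A) hq hqN

end K0

end Fermat.Agent.GL.Table.K0
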