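/-
GATE-L / K0-ROWS, part 2 (helper67): the two `w₃`-rows of the L3c table OVER `K₀`.

Level `N = M' q q`, `cusp3` (helper93), `Rw3K0 A N q = RwCuspK0 A N (cusp3 N q)` (helper26):

* `alphaK0_mem_Rw3K0_iff` : `α x ∈ R_{w₃} ↔ x ∈ R_{w₁'}`        (`π`;  `w₃ | w₁'`),
* `betaK0_mem_Rw3K0_iff`  : `β y ∈ R_{w₃} ↔ y ∈ R_{w₂'}`        (`π'`; `w₃ | w₂'`),
  with the `comap` forms, and the reductions (through the `ℚ̄`-level `red₃`, composed with
  `toFN0`): `red₃ (α x) = (red₁' x)(t^N)`, `red₃ (β y) = (red₂' y)(t^N)`, the right-hand sides being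
  the `K₀`-level reductions (`redDataK0`, `redData2K0`) base-changed along `k₀ → k`.

With `DegenK0` (rows for `w₁`, `w₂`) all six rows of the table now exist over `K₀`.
Inputs: helper18 `W3Table` (`ℚ̄`-level rows), helper26 `ThirdK0`, helper45 `SecondK0`.
-/
import Fermat.Agent.GL.Table.DegenK0
import Fermat.Agent.GL.Cusp.W3Table
import Fermat.Agent.GL.Val.ThirdK0

set_option autoImplicit false

noncomputable section

namespace Fermat.Agent.GL.Table.K0

open HahnSeries ModularCurve IsLocalRing CongruenceSubgroup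
open Fermat.Agent.S24 Fermat.Agent.S28 Fermat.Agent.S28.CuspExp Fermat.Agent.S28.Assemble
open Fermat.Agent.S24_helper62 Fermat.Agent.S24_helper82 Fermat.Agent.S24.Degree
open Fermat.Agent.GJ.J1 Fermat.Agent.GJ.J1.Val Fermat.Agent.GJ.HN
open Fermat.Agent.GL.CuspVal Fermat.Agent.GL.W3 Fermat.Agent.GL.W3Table
open Fermat.Agent.GL.Val.CuspCoeff Fermat.Agent.GL.Val.GaussK0 Fermat.Agent.GL.Val.CuspK0
open Fermat.Agent.GL.Val.SecondK0 Fermat.Agent.GL.Val.ThirdK0 Fermat.Agent.GK.AL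
open Fermat.Agent.Common_helper32

variable {q M' : ℕ} [NeZero q] [NeZero M'] (A : ValuationSubring Qb)

/-- **row `(π; w₃ → w₁')` over `K₀`** (every `A`) -/
theorem alphaK0_mem_Rw3K0_iff (hq : q.Prime) (x : modularFunctionFieldFullC (K0 A) (M' * q)) :
    alphaK0 A (M' * q) q x ∈ Rw3K0 A (M' * q * q) q ↔ x ∈ RwK0 A (M' * q) := by
  rw [mem_RwCuspK0_iff, ← mapK0Bar_eq_toFN0, mapK0Bar_alphaK0, mem_Rw1K0_iff]
  exact alphaB_mem_Rw3_iff A hq _

theorem comap_alphaK0_Rw3K0 (hq : q.Prime) :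
    (Rw3K0 A (M' * q * q) q).comap (alphaK0 A (M' * q) q : _ →+* _) = RwK0 A (M' * q) := by
  ext x
  rw [ValuationSubring.mem_comap]
  exact alphaK0_mem_Rw3K0_iff A hq x

/-- **row `(π'; w₃ → w₂')` over `K₀`** (every `A`) -/
theorem betaK0_mem_Rw3K0_iff (hq : q.Prime) (hqM : ¬ q ∣ M')
    (y : modularFunctionFieldFullC (K0 A) (M' * q)) :
    betaK0 A (M' * q) q y ∈ Rw3K0 A (M' * q * q) q ↔
      y ∈ (redData2K0 A (M' * q) (exactDvd_level hq hqM)).Rw := by
  rw [mem_RwCuspK0_iff, ← mapK0Bar_eq_toFN0, mapK0Bar_betaK0, mem_Rw2K0_iff]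
  exact betaB_mem_Rw3_iff A hq hqM _

theorem comap_betaK0_Rw3K0 (hq : q.Prime) (hqM : ¬ q ∣ M') :
    (Rw3K0 A (M' * q * q) q).comap (betaK0 A (M' * q) q : _ →+* _) =
      (redData2K0 A (M' * q) (exactDvd_level hq hqM)).Rw := by
  ext y
  rw [ValuationSubring.mem_comap]
  exact betaK0_mem_Rw3K0_iff A hq hqM y

omit [NeZero q] in
/-- membership in `R_{w₃}` over `K₀`, read over `ℚ̄` through `mapK0Bar` -/
theorem mem_Rw3K0_iff_mapK0Bar (N : ℕ) [NeZero N] (x : modularFunctionFieldFullC (K0 A) N) :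
    x ∈ Rw3K0 A N q ↔ mapK0Bar A N x ∈ (redData3 N A q).Rw := by
  rw [mem_RwCuspK0_iff, ← mapK0Bar_eq_toFN0]

/-- **`red₃ (α x) = (red₁' x)(t^N)`**, `x` over `K₀` (every `A`) -/
theorem coe_red3_alphaK0 (hq : q.Prime) (x : modularFunctionFieldFullC (K0 A) (M' * q))
    (hx : x ∈ RwK0 A (M' * q))
    (h : mapK0Bar A (M' * q * q) (alphaK0 A (M' * q) q x) ∈ (redData3 (M' * q * q) A q).Rw) :
    (((redData3 (M' * q * q) A q).red ⟨mapK0Bar A (M' * q * q) (alphaK0 A (M' * q) q x), h⟩ :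
        FresCusp (M' * q * q) A (cusp3 (M' * q * q) q)) : LaurentSeries (ResidueField A)) =
      qExpand (ResidueField A) (M' * q * q)
        (coeffMap (resMapK0 A)
          (((redDataK0 A (M' * q)).red ⟨x, hx⟩ : FresK0 A (M' * q)) :
            LaurentSeries (ResidueField (R0 A)))) := by
  have hx' : mapK0Bar A (M' * q) x ∈ (redDataBar (M' * q) A).Rw :=
    (mem_Rw1K0_iff A (M' * q) x).1 hx
  have h' : alphaB (M' * q) q (mapK0Bar A (M' * q) x) ∈ (redData3 (M' * q * q) A q).Rw := by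
    rw [← mapK0Bar_alphaK0]; exact h
  rw [← coe_red1K0 A (M' * q) x hx hx', ← coe_red3_alphaB A hq _ hx' h']
  congr 3

/-- **`red₃ (β y) = (red₂' y)(t^N)`**, `y` over `K₀`, `A` over `q` -/
theorem coe_red3_betaK0 (hq : q.Prime) (hqM : ¬ q ∣ M') (hA : A.LiesOverPrime q)
    (y : modularFunctionFieldFullC (K0 A) (M' * q))
    (hy : y ∈ (redData2K0 A (M' * q) (exactDvd_level hq hqM)).Rw)
    (h : mapK0Bar A (M' * q * q) (betaK0 A (M' * q) q y) ∈ (redData3 (M' * q * q) A q).Rw) :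
    (((redData3 (M' * q * q) A q).red ⟨mapK0Bar A (M' * q * q) (betaK0 A (M' * q) q y), h⟩ :
        FresCusp (M' * q * q) A (cusp3 (M' * q * q) q)) : LaurentSeries (ResidueField A)) =
      qExpand (ResidueField A) (M' * q * q)
        (coeffMap (resMapK0 A)
          (((redData2K0 A (M' * q) (exactDvd_level hq hqM)).red ⟨y, hy⟩ : FresK0 A (M' * q)) :
            LaurentSeries (ResidueField (R0 A)))) := by
  have hy' : mapK0Bar A (M' * q) y ∈ (redData2 (M' * q) A (exactDvd_level hq hqM)).Rw :=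
    (mem_Rw2K0_iff A (M' * q) (exactDvd_level hq hqM) y).1 hy
  have h' : betaB (M' * q) q (mapK0Bar A (M' * q) y) ∈ (redData3 (M' * q * q) A q).Rw := by
    rw [← mapK0Bar_betaK0]; exact h
  rw [← coe_red2K0 A (M' * q) (exactDvd_level hq hqM) y hy hy',
    ← coe_red3_betaB A hq hqM hA _ hy' h']
  congr 3
  exact mapK0Bar_betaK0 A (M' * q) q y

end Fermat.Agent.GL.Table.K0
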