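/-
GATE-L / (C6)-ROWS (helper18): **the three Kronecker congruences at the level `N = M' q q`**,
over `ℚ̄` and over `K₀`, in NON-UNITS form.

`j' = j` of level `N₀ = M' q`, `α = alphaK0`, `β = betaK0` (`α j' = j`, `β j' = j_q = j(qz)` at
level `N`).  For `A` over `q`:

* `kron_w1` : `β j' − (α j')^q ∈ 𝔪(w₁)`   (`red₁ j_q = (red₁ j)^q` : `j~(Q^q) = j~(Q)^q`),
* `kron_w2` : `α j' − (β j')^q ∈ 𝔪(w₂)`   (`red₂ j = (red₂ j_q)^q`, `w₂ = w₁ ∘ W_{q²}`),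
* `kron_w3` : `β j' − (α j')^q ∈ 𝔪(w₃)`   (`red₃ j_q = (red₃ j)^q`, `w₃` = the cusp `cusp3`),

with `w₁ = RwK0 A N`, `w₂ = (redData2QK0 A N hQ).Rw`, `w₃ = Rw3K0 A N q`; the `ℚ̄`-level twins
`kronBar_w1/2/3`; the forms with `α j'` rewritten as `jC N (K₀)` (`kron_w*_jC`); and the adapter
`kron_rows_of_centres` producing the three row hypotheses `jq − j^q ∈ P₁`, `j − jq^q ∈ P₂`,
`jq − j^q ∈ P₃` of helper30's `hssb_of_vert` for any subring `B` and ideals `P_i` cut out by the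
non-units of the `w_i`.

Inputs: helper15 `OldRed` (`w₁` rows), helper54 `TableW` (`w₂` rows), `W3Table` (`w₃` rows),
helper67 `DegenK0`/`RowsK0W3` (`K₀` forms), `GJ.J3.QS.qExpand_jqModC_char`.
-/
import Fermat.Agent.GL.Table.RowsK0W3
import Fermat.Agent.GL.Table.DegK0
import Fermat.Agent.GL.Red.RatBRing
import Fermat.Agent.GL.Val.ThirdK0Ne
import Fermat.Agent.GL.Eta.Fricke

set_option autoImplicit false

noncomputable section

namespace Fermat.Agent.GL.Table.KroneckerK0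

open HahnSeries ModularCurve IsLocalRing CongruenceSubgroup
open Fermat.Agent.S24 Fermat.Agent.S28 Fermat.Agent.S28.CuspExp Fermat.Agent.S28.Assemble
open Fermat.Agent.S24_helper62 Fermat.Agent.S24_helper82 Fermat.Agent.S24.Degree
open Fermat.Agent.GJ.J1 Fermat.Agent.GJ.J1.Val Fermat.Agent.GJ.HN
open Fermat.Agent.GL.CuspVal Fermat.Agent.GL.W3 Fermat.Agent.GL.W3Table
open Fermat.Agent.GL.Val.CuspCoeff Fermat.Agent.GL.Val.GaussK0 Fermat.Agent.GL.Val.CuspK0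
open Fermat.Agent.GL.Val.SecondK0 Fermat.Agent.GL.Val.SecondK0Hall Fermat.Agent.GL.Val.ThirdK0
open Fermat.Agent.GK.AL Fermat.Agent.GK.QS Fermat.Agent.GL.AL Fermat.Agent.GL.AL.TableW
open Fermat.Agent.GL.Table.K0 Fermat.Agent.GL.Val.DegBase
open Fermat.Agent.Common_helper32

/-! ### generic: equal reductions give a non-unit difference -/

section Generic

variable {K F k Ft : Type*} [Field K] [Field F] [Algebra K F] [Field k] [Field Ft] [Algebra k Ft]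

/-- `red x = (red y)^n ⟹ x − y^n ∈ 𝔪_w` -/
theorem sub_pow_mem_nonunits (R : RedData K F k Ft) {x y : F} (hx : x ∈ R.Rw) (hy : y ∈ R.Rw)
    (n : ℕ) (h : R.red ⟨x, hx⟩ = R.red ⟨y, hy⟩ ^ n) : x - y ^ n ∈ R.Rw.nonunits := by
  rw [ValuationSubring.mem_nonunits_iff_exists_mem_maximalIdeal]
  refine ⟨sub_mem hx (pow_mem hy n), ?_⟩
  rw [← R.red_eq_zero_iff]
  have e : (⟨x - y ^ n, sub_mem hx (pow_mem hy n)⟩ : R.Rw) = ⟨x, hx⟩ - ⟨y, hy⟩ ^ n := rfl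
  rw [e, map_sub, map_pow, h, sub_self]

end Generic

/-! ### over `ℚ̄` -/

section Bar

variable {q M' : ℕ} [NeZero q] [NeZero M'] (A : ValuationSubring Kbar)

local notation "𝕜" => ResidueField A

/-- `j ∈ R_{w₂'}` at level `M' q` -/
theorem jF_mem_Rw2 (hE : ExactDvd q (M' * q)) :
    jF (M' * q) ∈ (redData2 (M' * q) A hE).Rw := by
  rw [mem_Rw2_iff, Fermat.Agent.GL.Eta.wAut_jF']
  exact Fermat.Agent.GK.Val.Degrees.jdF_mem_Rw (M' * q) A hE.dvd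

/-- `red₂' j = j~(Q^q)` at level `M' q` -/
theorem coe_red2_jF (hE : ExactDvd q (M' * q)) (h : jF (M' * q) ∈ (redData2 (M' * q) A hE).Rw) :
    (((redData2 (M' * q) A hE).red ⟨jF (M' * q), h⟩ : FresBar (M' * q) A) : LaurentSeries 𝕜) =
      qExpand 𝕜 q (jqModC 𝕜) := by
  rw [red2_eq]
  have hm : jdF (M' * q) q hE.dvd ∈ (redDataBar (M' * q) A).Rw :=
    Fermat.Agent.GK.Val.Degrees.jdF_mem_Rw (M' * q) A hE.dvd
  have e : (⟨wAut hE (jF (M' * q)), h⟩ : (redDataBar (M' * q) A).Rw) =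
      ⟨jdF (M' * q) q hE.dvd, hm⟩ := Subtype.ext (Fermat.Agent.GL.Eta.wAut_jF' hE)
  rw [e]
  exact Fermat.Agent.GK.Val.Degrees.coe_red_jdF (M' * q) A hE.dvd hm

/-- **Kronecker at `w₁`**: `j_q − j^q ∈ 𝔪(w₁)` -/
theorem kronBar_w1 (hq : q.Prime) (hA : A.LiesOverPrime q) :
    betaB (M' * q) q (jF (M' * q)) - alphaB (M' * q) q (jF (M' * q)) ^ q ∈
      (redDataBar (M' * q * q) A).Rw.nonunits := by
  have : Fact q.Prime := ⟨hq⟩
  have : CharP 𝕜 q := Fermat.Agent.GJ.J1.Val.charP_residue A hq hA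
  have hj : jF (M' * q) ∈ (redDataBar (M' * q) A).Rw :=
    Fermat.Agent.GK.Val.Degrees.jdF_mem_Rw (M' * q) A (one_dvd _)
  have hα : alphaB (M' * q) q (jF (M' * q)) ∈ (redDataBar (M' * q * q) A).Rw :=
    (alpha_mem_RwBar_iff (M' * q) q A _).mpr hj
  have hβ : betaB (M' * q) q (jF (M' * q)) ∈ (redDataBar (M' * q * q) A).Rw :=
    (beta_mem_RwBar_iff (M' * q) q A _).mpr hj
  have r0 : (((redDataBar (M' * q) A).red ⟨jF (M' * q), hj⟩ : FresBar (M' * q) A) :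
      LaurentSeries 𝕜) = jqModC 𝕜 := Fermat.Agent.GK.Val.Degrees.coe_red_jF' (M' * q) A hj
  have rα : (((redDataBar (M' * q * q) A).red ⟨alphaB (M' * q) q (jF (M' * q)), hα⟩ :
      FresBar (M' * q * q) A) : LaurentSeries 𝕜) = jqModC 𝕜 :=
    (coe_red_alpha (M' * q) q A ⟨_, hj⟩ hα).trans r0
  have rβ : (((redDataBar (M' * q * q) A).red ⟨betaB (M' * q) q (jF (M' * q)), hβ⟩ :
      FresBar (M' * q * q) A) : LaurentSeries 𝕜) = qExpand 𝕜 q (jqModC 𝕜) :=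
    (coe_red_beta (M' * q) q A ⟨_, hj⟩ hβ).trans (congrArg _ r0)
  apply sub_pow_mem_nonunits (redDataBar (M' * q * q) A) hβ hα q
  apply Subtype.ext
  rw [SubmonoidClass.coe_pow, rα, rβ, Fermat.Agent.GJ.J3.QS.qExpand_jqModC_char q]

/-- **Kronecker at `w₂`**: `j − j_q^q ∈ 𝔪(w₂)` -/
theorem kronBar_w2 (hq : q.Prime) (hA : A.LiesOverPrime q)
    (hQ : HallDvd (q ^ 2) (M' * q * q)) (hE : ExactDvd q (M' * q)) :
    alphaB (M' * q) q (jF (M' * q)) - betaB (M' * q) q (jF (M' * q)) ^ q ∈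
      (redData2Q (M' * q * q) A hQ).Rw.nonunits := by
  have : Fact q.Prime := ⟨hq⟩
  have : CharP 𝕜 q := Fermat.Agent.GJ.J1.Val.charP_residue A hq hA
  have hj : jF (M' * q) ∈ (redData2 (M' * q) A hE).Rw := jF_mem_Rw2 A hE
  have hα : alphaB (M' * q) q (jF (M' * q)) ∈ (redData2Q (M' * q * q) A hQ).Rw :=
    (alphaB_mem_Rw2Q_iff M' A hQ hE _).mpr hj
  have hβ : betaB (M' * q) q (jF (M' * q)) ∈ (redData2Q (M' * q * q) A hQ).Rw :=
    (betaB_mem_Rw2Q_iff M' A hQ hE _).mpr hj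
  have r0 := coe_red2_jF A hE hj
  have rα : (((redData2Q (M' * q * q) A hQ).red ⟨alphaB (M' * q) q (jF (M' * q)), hα⟩ :
      FresBar (M' * q * q) A) : LaurentSeries 𝕜) = qExpand 𝕜 q (qExpand 𝕜 q (jqModC 𝕜)) :=
    (coe_red2Q_alphaB M' A hQ hE _ hj hα).trans (congrArg _ r0)
  have rβ : (((redData2Q (M' * q * q) A hQ).red ⟨betaB (M' * q) q (jF (M' * q)), hβ⟩ :
      FresBar (M' * q * q) A) : LaurentSeries 𝕜) = qExpand 𝕜 q (jqModC 𝕜) :=
    (coe_red2Q_betaB M' A hQ hE _ hj hβ).trans r0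
  apply sub_pow_mem_nonunits (redData2Q (M' * q * q) A hQ) hα hβ q
  apply Subtype.ext
  rw [SubmonoidClass.coe_pow, rα, rβ, Fermat.Agent.GJ.J3.QS.qExpand_jqModC_char q, map_pow,
    Fermat.Agent.GJ.J3.QS.qExpand_jqModC_char q]

/-- **Kronecker at `w₃`**: `j_q − j^q ∈ 𝔪(w₃)` -/
theorem kronBar_w3 (hq : q.Prime) (hqM : ¬ q ∣ M') (hA : A.LiesOverPrime q) :
    betaB (M' * q) q (jF (M' * q)) - alphaB (M' * q) q (jF (M' * q)) ^ q ∈
      (redData3 (M' * q * q) A q).Rw.nonunits := by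
  have : Fact q.Prime := ⟨hq⟩
  have : CharP 𝕜 q := Fermat.Agent.GJ.J1.Val.charP_residue A hq hA
  have hj1 : jF (M' * q) ∈ (redDataBar (M' * q) A).Rw :=
    Fermat.Agent.GK.Val.Degrees.jdF_mem_Rw (M' * q) A (one_dvd _)
  have hj2 : jF (M' * q) ∈ (redData2 (M' * q) A (exactDvd_level hq hqM)).Rw :=
    jF_mem_Rw2 A (exactDvd_level hq hqM)
  have hα : alphaB (M' * q) q (jF (M' * q)) ∈ (redData3 (M' * q * q) A q).Rw :=
    (alphaB_mem_Rw3_iff A hq _).mpr hj1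
  have hβ : betaB (M' * q) q (jF (M' * q)) ∈ (redData3 (M' * q * q) A q).Rw :=
    (betaB_mem_Rw3_iff A hq hqM _).mpr hj2
  have r1 : (((redDataBar (M' * q) A).red ⟨jF (M' * q), hj1⟩ : FresBar (M' * q) A) :
      LaurentSeries 𝕜) = jqModC 𝕜 := Fermat.Agent.GK.Val.Degrees.coe_red_jF' (M' * q) A hj1
  have r2 := coe_red2_jF A (exactDvd_level hq hqM) hj2
  have rα : (((redData3 (M' * q * q) A q).red ⟨alphaB (M' * q) q (jF (M' * q)), hα⟩ :
      FresCusp (M' * q * q) A (cusp3 (M' * q * q) q)) : LaurentSeries 𝕜) =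
        qExpand 𝕜 (M' * q * q) (jqModC 𝕜) :=
    (coe_red3_alphaB A hq _ hj1 hα).trans (congrArg _ r1)
  have rβ : (((redData3 (M' * q * q) A q).red ⟨betaB (M' * q) q (jF (M' * q)), hβ⟩ :
      FresCusp (M' * q * q) A (cusp3 (M' * q * q) q)) : LaurentSeries 𝕜) =
        qExpand 𝕜 (M' * q * q) (qExpand 𝕜 q (jqModC 𝕜)) :=
    (coe_red3_betaB A hq hqM hA _ hj2 hβ).trans (congrArg _ r2)
  apply sub_pow_mem_nonunits (redData3 (M' * q * q) A q) hβ hα q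
  apply Subtype.ext
  rw [SubmonoidClass.coe_pow, rα, rβ, Fermat.Agent.GJ.J3.QS.qExpand_jqModC_char q, map_pow]

end Bar

/-! ### over `K₀` -/

section K0

variable {q M' : ℕ} [NeZero q] [NeZero M'] (A : ValuationSubring Qb)

/-- **Kronecker at `w₁` over `K₀`**: `β j' − (α j')^q ∈ 𝔪(w₁)` -/
theorem kron_w1 (hq : q.Prime) (hA : A.LiesOverPrime q) :
    betaK0 A (M' * q) q (jC (M' * q) (K0 A)) - alphaK0 A (M' * q) q (jC (M' * q) (K0 A)) ^ q ∈
      (RwK0 A (M' * q * q)).nonunits := by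
  rw [mem_nonunits_Rw1K0_iff, map_sub, map_pow, mapK0Bar_betaK0, mapK0Bar_alphaK0,
    Fermat.Agent.GL.RatBRing.mapK0Bar_jC]
  exact kronBar_w1 A hq hA

/-- **Kronecker at `w₂` over `K₀`**: `α j' − (β j')^q ∈ 𝔪(w₂)` -/
theorem kron_w2 (hq : q.Prime) (hA : A.LiesOverPrime q)
    (hQ : HallDvd (q ^ 2) (M' * q * q)) (hE : ExactDvd q (M' * q)) :
    alphaK0 A (M' * q) q (jC (M' * q) (K0 A)) - betaK0 A (M' * q) q (jC (M' * q) (K0 A)) ^ q ∈
      (redData2QK0 A (M' * q * q) hQ).Rw.nonunits := by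
  rw [mem_nonunits_Rw2QK0_iff, map_sub, map_pow, mapK0Bar_betaK0, mapK0Bar_alphaK0,
    Fermat.Agent.GL.RatBRing.mapK0Bar_jC]
  exact kronBar_w2 A hq hA hQ hE

/-- **Kronecker at `w₃` over `K₀`**: `β j' − (α j')^q ∈ 𝔪(w₃)` -/
theorem kron_w3 (hq : q.Prime) (hqM : ¬ q ∣ M') (hA : A.LiesOverPrime q) :
    betaK0 A (M' * q) q (jC (M' * q) (K0 A)) - alphaK0 A (M' * q) q (jC (M' * q) (K0 A)) ^ q ∈
      (Rw3K0 A (M' * q * q) q).nonunits := by
  rw [Fermat.Agent.GL.W3.mem_nonunits_Rw3K0_iff_mapK0Bar, map_sub, map_pow,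
    mapK0Bar_betaK0, mapK0Bar_alphaK0, Fermat.Agent.GL.RatBRing.mapK0Bar_jC]
  exact kronBar_w3 A hq hqM hA

/-- `α j' = j` (level `N`) -/
theorem alphaK0_jC : alphaK0 A (M' * q) q (jC (M' * q) (K0 A)) = jC (M' * q * q) (K0 A) :=
  alphaC_jC (K0 A)

theorem kron_w1_jC (hq : q.Prime) (hA : A.LiesOverPrime q) :
    betaK0 A (M' * q) q (jC (M' * q) (K0 A)) - jC (M' * q * q) (K0 A) ^ q ∈
      (RwK0 A (M' * q * q)).nonunits := by
  rw [← alphaK0_jC]; exact kron_w1 A hq hA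

theorem kron_w2_jC (hq : q.Prime) (hA : A.LiesOverPrime q)
    (hQ : HallDvd (q ^ 2) (M' * q * q)) (hE : ExactDvd q (M' * q)) :
    jC (M' * q * q) (K0 A) - betaK0 A (M' * q) q (jC (M' * q) (K0 A)) ^ q ∈
      (redData2QK0 A (M' * q * q) hQ).Rw.nonunits := by
  rw [← alphaK0_jC]; exact kron_w2 A hq hA hQ hE

theorem kron_w3_jC (hq : q.Prime) (hqM : ¬ q ∣ M') (hA : A.LiesOverPrime q) :
    betaK0 A (M' * q) q (jC (M' * q) (K0 A)) - jC (M' * q * q) (K0 A) ^ q ∈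
      (Rw3K0 A (M' * q * q) q).nonunits := by
  rw [← alphaK0_jC]; exact kron_w3 A hq hqM hA

/-- **the three rows of `hssb_of_vert`** for a subring `B` of `K₀(X₀(N))` and ideals `P_i` cut out
by the non-units of `w_i`; `j`, `jq : B` with underlying elements `jC N K₀` and `β j'`. -/
theorem kron_rows_of_centres (hq : q.Prime) (hqM : ¬ q ∣ M') (hA : A.LiesOverPrime q)
    (hQ : HallDvd (q ^ 2) (M' * q * q)) (hE : ExactDvd q (M' * q))
    {B : Subring (modularFunctionFieldFullC (K0 A) (M' * q * q))} (P1 P2 P3 : Ideal B)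
    (hP1 : ∀ b : B, (b : modularFunctionFieldFullC (K0 A) (M' * q * q)) ∈
      (RwK0 A (M' * q * q)).nonunits → b ∈ P1)
    (hP2 : ∀ b : B, (b : modularFunctionFieldFullC (K0 A) (M' * q * q)) ∈
      (redData2QK0 A (M' * q * q) hQ).Rw.nonunits → b ∈ P2)
    (hP3 : ∀ b : B, (b : modularFunctionFieldFullC (K0 A) (M' * q * q)) ∈
      (Rw3K0 A (M' * q * q) q).nonunits → b ∈ P3)
    (j jq : B)
    (hj : (j : modularFunctionFieldFullC (K0 A) (M' * q * q)) = jC (M' * q * q) (K0 A))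
    (hjq : (jq : modularFunctionFieldFullC (K0 A) (M' * q * q)) =
      betaK0 A (M' * q) q (jC (M' * q) (K0 A))) :
    jq - j ^ q ∈ P1 ∧ j - jq ^ q ∈ P2 ∧ jq - j ^ q ∈ P3 := by
  refine ⟨hP1 _ ?_, hP2 _ ?_, hP3 _ ?_⟩
  · rw [AddSubgroupClass.coe_sub, SubmonoidClass.coe_pow, hj, hjq]
    exact kron_w1_jC A hq hA
  · rw [AddSubgroupClass.coe_sub, SubmonoidClass.coe_pow, hj, hjq]
    exact kron_w2_jC A hq hA hQ hE
  · rw [AddSubgroupClass.coe_sub, SubmonoidClass.coe_pow, hj, hjq]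
    exact kron_w3_jC A hq hqM hA

end K0

end Fermat.Agent.GL.Table.KroneckerK0
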