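/-
GATE-L / KRON-LOWER (helper42): **the two Kronecker congruences at a level `N` with `q ∥ N`,
over `K₀`, in NON-UNITS form** = the inputs `r1 r2 hj1' hj2'` of helper47's
`CuspPoints.atMostOne_of_cusp` (at the LOWER level `N₀ = M' q` of the frame).

`j' = jK0 A N` (`= jC N K₀`), `j_q' = genC K₀ R₀ N hd` (`= j(qz)`, `hd : q ∣ N`).  For `A` over `q`:

* `kronLow_w1` : `j_q' − j'^q ∈ 𝔪(w₁')`        (`red₁ j_q = j~(X^q) = j~^q`),            `q ∣ N`;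
* `kronLow_w2` : `j' − j_q'^q ∈ 𝔪(w₂')`        (`w₂' = w₁' ∘ W_q` : `W_q j = j_q`, `W_q j_q = j`), `q ∥ N`;
* `jK0_inv_mem_RwK0`, `jK0_inv_mem_Rw2K0` : `1/j'` lies in both valuation rings (`j'` is a Gauss
  chart of both);
* `jC`-forms of all four, and the literal forms at `N = M' * q`.

`w₁' = RwK0 A N`, `w₂' = (redData2K0 A N h).Rw`.
-/
import Fermat.Agent.GL.Table.KroneckerK0
import Fermat.Agent.GL.Val.OrthK0

set_option autoImplicit false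
set_option linter.unusedSectionVars false

noncomputable section

namespace Fermat.Agent.GL.Table.KroneckerK0Low

open HahnSeries ModularCurve IsLocalRing
open Fermat.Agent.S24 Fermat.Agent.S24_helper62
open Fermat.Agent.GJ.J1 Fermat.Agent.GJ.J1.Val
open Fermat.Agent.GK.AL Fermat.Agent.GL.AL
open Fermat.Agent.GK.Val.GaussBase Fermat.Agent.GK.Val.Degrees Fermat.Agent.GL.Val.DegBase
open Fermat.Agent.GL.Val.GaussK0 Fermat.Agent.GL.Val.SecondK0 Fermat.Agent.GL.Val.OrthK0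
open Fermat.Agent.GL.Table.KroneckerK0
open Fermat.Agent.Common_helper32

variable (A : ValuationSubring Qb) (N : ℕ) [NeZero N] {q : ℕ} [NeZero q]

local notation "k₀" => ResidueField (R0 A)

/-! ### `1/j` in the two valuation rings -/

/-- `1/j ∈ R_{w₁}` -/
theorem jK0_inv_mem_RwK0 : (jK0 A N)⁻¹ ∈ RwK0 A N :=
  (Fermat.Agent.GJ.J1.Select.isGaussChart_inv (isGaussChart_jK0 A N)).1

/-- `1/j ∈ R_{w₂}` -/
theorem jK0_inv_mem_Rw2K0 (h : ExactDvd q N) : (jK0 A N)⁻¹ ∈ (redData2K0 A N h).Rw :=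
  (Fermat.Agent.GJ.J1.Select.isGaussChart_inv (isGaussChart_jK0_2 A N h)).1

/-! ### the two congruences -/

/-- **Kronecker at `w₁'`** (`q ∣ N`): `j_q − j^q ∈ 𝔪(w₁')` -/
theorem kronLow_w1 (hq : q.Prime) (hA : A.LiesOverPrime q) (hd : q ∣ N) :
    genC (K0 A) (R0 A) N hd - jK0 A N ^ q ∈ (RwK0 A N).nonunits := by
  have : Fact q.Prime := ⟨hq⟩
  have : CharP k₀ q := charP_k0 A hq hA
  have hx : genC (K0 A) (R0 A) N hd ∈ (redDataK0 A N).Rw := genC_mem_RwC (K0 A) (R0 A) N hd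
  have hy : jK0 A N ∈ (redDataK0 A N).Rw := jK0_mem_RwK0 A N
  apply sub_pow_mem_nonunits (redDataK0 A N) hx hy q
  apply Subtype.ext
  rw [SubmonoidClass.coe_pow, coe_red1K0_jK0 A N hy, coe_red_genC (K0 A) (R0 A) N hd hx,
    Fermat.Agent.GJ.J3.QS.qExpand_jqModC_char q]

/-- `W_q j_q = j` over `K₀` (as a generator with index of value `1`) -/
theorem wAutK0_genC_q (h : ExactDvd q N) :
    wAutK0 A N h (genC (K0 A) (R0 A) N h.dvd) =
      genC (K0 A) (R0 A) N (swapIdx h (idxQ N h)).2 :=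
  wAutK0_genC A N h (idxQ N h)

theorem genC_q_mem_Rw2K0 (h : ExactDvd q N) :
    genC (K0 A) (R0 A) N h.dvd ∈ (redData2K0 A N h).Rw := by
  rw [mem_Rw2K0_iff_wAutK0, wAutK0_genC_q]
  exact genC_mem_RwC (K0 A) (R0 A) N _

/-- `red₂ j_q = j~` -/
theorem coe_red2K0_genC_q (h : ExactDvd q N)
    (h2 : genC (K0 A) (R0 A) N h.dvd ∈ (redData2K0 A N h).Rw) :
    (((redData2K0 A N h).red ⟨genC (K0 A) (R0 A) N h.dvd, h2⟩ : FresK0 A N) :
      LaurentSeries k₀) = jqModC k₀ := by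
  rw [red2K0_of_eq A N h _ h2 _ (genC_mem_RwC (K0 A) (R0 A) N _) (wAutK0_genC_q A N h)]
  have e := coe_red_genC (K0 A) (R0 A) N (swapIdx h (idxQ N h)).2
    (genC_mem_RwC (K0 A) (R0 A) N _)
  rw [e]
  have : NeZero (swapIdx h (idxQ N h)).1 := ⟨by rw [swapIdx_idxQ_val N h]; exact one_ne_zero⟩
  exact (qExpand_congr (swapIdx_idxQ_val N h) _).trans (qExpand_one_apply _)

/-- **Kronecker at `w₂'`** (`q ∥ N`): `j − j_q^q ∈ 𝔪(w₂')` -/
theorem kronLow_w2 (hA : A.LiesOverPrime q) (h : ExactDvd q N) :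
    jK0 A N - genC (K0 A) (R0 A) N h.dvd ^ q ∈ (redData2K0 A N h).Rw.nonunits := by
  have : Fact q.Prime := ⟨h.prime⟩
  have : CharP k₀ q := charP_k0 A h.prime hA
  have hx : jK0 A N ∈ (redData2K0 A N h).Rw := jK0_mem_Rw2K0 A N h
  have hy : genC (K0 A) (R0 A) N h.dvd ∈ (redData2K0 A N h).Rw := genC_q_mem_Rw2K0 A N h
  apply sub_pow_mem_nonunits (redData2K0 A N h) hx hy q
  apply Subtype.ext
  rw [SubmonoidClass.coe_pow, coe_red2K0_jK0 A N h hx, coe_red2K0_genC_q A N h hy,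
    Fermat.Agent.GJ.J3.QS.qExpand_jqModC_char q]

/-! ### `jC` forms -/

theorem jC_inv_mem_RwK0 : (jC N (K0 A))⁻¹ ∈ RwK0 A N := by
  rw [← jK0_eq_jC]; exact jK0_inv_mem_RwK0 A N

theorem jC_inv_mem_Rw2K0 (h : ExactDvd q N) : (jC N (K0 A))⁻¹ ∈ (redData2K0 A N h).Rw := by
  rw [← jK0_eq_jC]; exact jK0_inv_mem_Rw2K0 A N h

theorem kronLow_w1_jC (hq : q.Prime) (hA : A.LiesOverPrime q) (hd : q ∣ N) :
    genC (K0 A) (R0 A) N hd - jC N (K0 A) ^ q ∈ (RwK0 A N).nonunits := by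
  rw [← jK0_eq_jC]; exact kronLow_w1 A N hq hA hd

theorem kronLow_w2_jC (hA : A.LiesOverPrime q) (h : ExactDvd q N) :
    jC N (K0 A) - genC (K0 A) (R0 A) N h.dvd ^ q ∈ (redData2K0 A N h).Rw.nonunits := by
  rw [← jK0_eq_jC]; exact kronLow_w2 A N hA h

/-- **the four inputs `hj1' hj2' r1 r2` of `CuspPoints.atMostOne_of_cusp`** at a level `N` with
`q ∥ N`, `W1' := RwK0 A N`, `W2' := (redData2K0 A N h).Rw`, `j' := jK0 A N`,
`jq' := genC K₀ R₀ N h.dvd`, `qq := q`. -/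
theorem cusp_inputs (hA : A.LiesOverPrime q) (h : ExactDvd q N) :
    (jK0 A N)⁻¹ ∈ RwK0 A N ∧ (jK0 A N)⁻¹ ∈ (redData2K0 A N h).Rw ∧
      genC (K0 A) (R0 A) N h.dvd - jK0 A N ^ q ∈ (RwK0 A N).nonunits ∧
      jK0 A N - genC (K0 A) (R0 A) N h.dvd ^ q ∈ (redData2K0 A N h).Rw.nonunits :=
  ⟨jK0_inv_mem_RwK0 A N, jK0_inv_mem_Rw2K0 A N h, kronLow_w1 A N h.prime hA h.dvd,
    kronLow_w2 A N hA h⟩

end Fermat.Agent.GL.Table.KroneckerK0Low
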